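import Mathlib
import Fermat.Agent.X0.ModDeg
import Fermat.Agent.X0.Count.CardP1
import Fermat.Prelude.Def_ModularCurve_HeckeOperator

/-!
# S37 (M4), node ES-DEG, part 1: the degree of the degeneracy map `α`

`[F̄_{Nℓ} : α(F̄_N)] = ℓ + 1` for a prime `ℓ ∤ N`, i.e. `finrankAlong Kb (heckeAlphaBar Kb N ℓ) = ℓ + 1`.

* `finrank_mul_finrankAlong` : abstract tower law along an algebra homomorphism
  `φ : F →ₐ[K] F'`: `[F : K(x)] · [F' : φ F] = [F' : K(φ x)]`;
* `finrankAlong_eq_of_equiv` : two homomorphisms differing by an automorphism of the target have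
  the same degree;
* `finrankAlong_heckeAlphaBar` : the degree of `α`.
-/

set_option autoImplicit false
set_option linter.style.haveILetI false

noncomputable section

namespace Fermat.Agent.Hecke.Deg

open AlgebraicCurve ModularCurve IntermediateField Fermat.Agent.X0

section Abstract

variable {K F F' : Type*} [Field K] [Field F] [Field F'] [Algebra K F] [Algebra K F']

/-- The restriction of `φ` to `K(x)`, as a ring isomorphism onto `K(φ x)`. -/
def adjoinSimpleEquiv (φ : F →ₐ[K] F') (x : F) : K⟮x⟯ ≃ₐ[K] K⟮φ x⟯ :=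
  (IntermediateField.equivMap K⟮x⟯ φ).trans
    (IntermediateField.equivOfEq (by rw [IntermediateField.adjoin_map, Set.image_singleton]))

theorem coe_adjoinSimpleEquiv (φ : F →ₐ[K] F') (x : F) (y : K⟮x⟯) :
    ((adjoinSimpleEquiv φ x y : K⟮φ x⟯) : F') = φ (y : F) := rfl

/-- **Tower law along `φ`**: `[F : K(x)] · [F' : φ F] = [F' : K(φ x)]`. -/
theorem finrank_mul_finrankAlong (φ : F →ₐ[K] F') (x : F) :
    Module.finrank K⟮x⟯ F * finrankAlong K φ = Module.finrank K⟮φ x⟯ F' := by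
  letI := algebraAlong φ
  letI a2 : Algebra K⟮x⟯ F' := (φ.toRingHom.comp (algebraMap K⟮x⟯ F)).toAlgebra
  haveI : IsScalarTower K⟮x⟯ F F' := IsScalarTower.of_algebraMap_eq fun _ => rfl
  have h1 : Module.finrank K⟮x⟯ F * Module.finrank F F' = Module.finrank K⟮x⟯ F' :=
    Module.finrank_mul_finrank K⟮x⟯ F F'
  have h2 : Module.finrank K⟮x⟯ F' = Module.finrank K⟮φ x⟯ F' := by
    refine Algebra.finrank_eq_of_equiv_equiv (adjoinSimpleEquiv φ x).toRingEquiv
      (RingEquiv.refl F') ?_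
    ext y
    rfl
  rw [finrankAlong, h1, h2]

/-- Homomorphisms differing by an automorphism of the target have the same degree. -/
theorem finrankAlong_eq_of_equiv (φ ψ : F →ₐ[K] F') (w : F' ≃ₐ[K] F')
    (h : ∀ x, w (φ x) = ψ x) : finrankAlong K φ = finrankAlong K ψ := by
  unfold finrankAlong
  refine @Algebra.finrank_eq_of_equiv_equiv F F' _ _ (algebraAlong φ) F F' _ _ (algebraAlong ψ)
    (RingEquiv.refl F) w.toRingEquiv ?_
  ext x
  exact (h x).symm

end Abstract

section Modular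

variable (N ℓ : ℕ) [NeZero N] [NeZero ℓ]

theorem heckeAlphaBar_jBar : heckeAlphaBar Kb N ℓ (jBar N) = jBar (N * ℓ) :=
  Subtype.ext (by rw [coe_heckeAlphaBar]; rfl)

theorem dedekindPsi_pos : 0 < dedekindPsi N := by
  haveI := (jBar_isSepVar N).finite
  rw [← (jBar_isSepVar N).finrank_eq]
  exact Module.finrank_pos

omit [NeZero N] in
theorem dedekindPsi_mul_prime {ℓ : ℕ} (hℓ : ℓ.Prime) (hℓN : ¬ ℓ ∣ N) :
    dedekindPsi (N * ℓ) = dedekindPsi N * (ℓ + 1) := by
  have hcop : N.Coprime ℓ := ((Nat.Prime.coprime_iff_not_dvd hℓ).mpr hℓN).symm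
  rw [Fermat.Agent.X0.Count.dedekindPsi_mul hcop]
  have := Fermat.Agent.X0.Count.dedekindPsi_prime_pow hℓ (k := 1) one_pos
  rw [pow_one] at this
  rw [this]
  simp

/-- **Degree of `α`**: `[F̄_{Nℓ} : α(F̄_N)] = ℓ + 1` for a prime `ℓ ∤ N`. -/
theorem finrankAlong_heckeAlphaBar (hℓ : ℓ.Prime) (hℓN : ¬ ℓ ∣ N) :
    finrankAlong Kb (heckeAlphaBar Kb N ℓ) = ℓ + 1 := by
  have h1 := finrank_mul_finrankAlong (heckeAlphaBar Kb N ℓ) (jBar N)
  rw [heckeAlphaBar_jBar, (jBar_isSepVar N).finrank_eq, (jBar_isSepVar (N * ℓ)).finrank_eq,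
    dedekindPsi_mul_prime N hℓ hℓN] at h1
  exact Nat.eq_of_mul_eq_mul_left (dedekindPsi_pos N) h1

end Modular

end Fermat.Agent.Hecke.Deg
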