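import Mathlib
import Fermat.Prelude.Def_ModularCurve_HeckeOperatorTotal
import Fermat.Agent.X0.ModDeg
import Fermat.Agent.X0.DegTrans
import Fermat.Agent.X0.Alg.SepVarChange
import Fermat.Agent.X0.Alg.PrincipalDeg
import Fermat.Agent.FF.NormFormula
import Fermat.Agent.FF.CurveExt

/-!
# S37 (M1): the Hecke inputs of the Prelude hold over `ℚ̄`

The Prelude defines `heckeOperatorAlong L N ℓ` as the honest Hecke correspondence if
`HeckeInputsAlong L N ℓ` holds, and `0` otherwise.  Here:

* general: `finiteAlong_of_transcendental` (a function field in one variable is finite over the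
  image of any `K`-algebra map from a field containing a transcendental element),
  `fundamentalIdentityAlong_of_finite`, `normFormulaAlong_of_finite` (char-free, from L-FF node 2);
* **`heckeInputsAlong N ℓ : HeckeInputsAlong ℚ̄ N ℓ`** for all `N, ℓ ≥ 1`, hence
  `heckeOperatorAlong_eq_heckePic0Bar`.
-/

set_option autoImplicit false
set_option linter.unusedSectionVars false
set_option linter.style.haveILetI false

open AlgebraicCurve IntermediateField

namespace Fermat.Agent.Hecke

section General

variable {K F₁ F : Type*} [Field K] [Field F₁] [Field F] [Algebra K F₁] [Algebra K F]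

/-- A function field in one variable is finite over the image of any `K`-algebra map from a field
containing a transcendental element. -/
theorem finiteAlong_of_transcendental (φ : F₁ →ₐ[K] F) (x : F) [FiniteDimensional K⟮x⟯ F]
    {y : F₁} (hy : Transcendental K y) : FiniteAlong K φ := by
  have hφy : Transcendental K (φ y) := by
    intro h
    exact hy ((isAlgebraic_algHom_iff φ φ.injective).mp h)
  have hfd : FiniteDimensional K⟮φ y⟯ F :=
    Fermat.Agent.X0.PrincipalDeg.finiteDimensional_adjoin_simple_of_transcendental x (φ y) hφy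
  have hle : K⟮φ y⟯ ≤ φ.fieldRange := by
    rw [adjoin_simple_le_iff]
    exact ⟨y, rfl⟩
  unfold FiniteAlong
  classical
  letI := algebraAlong φ
  let b := Module.finBasis K⟮φ y⟯ F
  refine ⟨⟨Finset.univ.image b, ?_⟩⟩
  rw [eq_top_iff]
  intro z _
  rw [← b.sum_repr z]
  refine Submodule.sum_mem _ fun i _ => ?_
  obtain ⟨d, hd⟩ := hle (b.repr z i).2
  have h1 : (b.repr z i) • b i = d • b i := by
    show ((b.repr z i : K⟮φ y⟯) : F) * b i = φ d * b i
    rw [← hd]
    rfl
  rw [h1]
  refine Submodule.smul_mem _ d (Submodule.subset_span ?_)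
  rw [Finset.coe_image, Finset.coe_univ, Set.image_univ]
  exact Set.mem_range_self i

theorem isIntegral_of_finiteAlong (φ : F₁ →ₐ[K] F) (h : FiniteAlong K φ) :
    φ.toRingHom.IsIntegral := by
  letI := algebraAlong φ
  have : Module.Finite F₁ F := h
  have : Algebra.IsIntegral F₁ F := Algebra.IsIntegral.of_finite F₁ F
  exact fun z => Algebra.IsIntegral.isIntegral z

/-- **`FundamentalIdentityAlong`** for a finite separable map of function fields (any char). -/
theorem fundamentalIdentityAlong_of_finite (φ : F₁ →ₐ[K] F) (hfin : FiniteAlong K φ)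
    (hsep : letI := algebraAlong φ; Algebra.IsSeparable F₁ F) [HasPrincipalDivisors K F]
    (hφ : φ.toRingHom.IsIntegral) : FundamentalIdentityAlong K φ hφ := by
  unfold FundamentalIdentityAlong
  letI := algebraAlong φ
  haveI := isScalarTower_along φ
  haveI : FiniteDimensional F₁ F := hfin
  haveI : Algebra.IsSeparable F₁ F := hsep
  exact Fermat.Agent.FF.fundamentalIdentity

/-- **`NormFormulaAlong`** for a finite separable map of function fields (any char). -/
theorem normFormulaAlong_of_finite (φ : F₁ →ₐ[K] F) (hfin : FiniteAlong K φ)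
    (hsep : letI := algebraAlong φ; Algebra.IsSeparable F₁ F) : NormFormulaAlong K φ hfin := by
  unfold NormFormulaAlong
  letI := algebraAlong φ
  haveI := isScalarTower_along φ
  haveI : FiniteDimensional F₁ F := hfin
  haveI : Algebra.IsSeparable F₁ F := hsep
  exact Fermat.Agent.FF.pushforwardNormFormula

/-- In characteristic zero separability is automatic. -/
theorem isSeparable_along_of_charZero [CharZero F₁] (φ : F₁ →ₐ[K] F) (hfin : FiniteAlong K φ) :
    letI := algebraAlong φ; Algebra.IsSeparable F₁ F := by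
  letI := algebraAlong φ
  haveI : FiniteDimensional F₁ F := hfin
  infer_instance

end General

section Modular

open ModularCurve Fermat.Agent.X0

variable (N ℓ : ℕ) [NeZero N] [NeZero ℓ]

instance : CharZero (Fb N) := charZero_of_injective_algebraMap (algebraMap Kb (Fb N)).injective

theorem finiteAlong_heckeAlphaBar : FiniteAlong Kb (heckeAlphaBar Kb N ℓ) :=
  haveI : FiniteDimensional Kb⟮jBar (N * ℓ)⟯ (Fb (N * ℓ)) := (jBar_isSepVar (N * ℓ)).finite
  finiteAlong_of_transcendental _ (jBar (N * ℓ)) (jBar_transcendental N)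

theorem finiteAlong_heckeBetaBar : FiniteAlong Kb (heckeBetaBar Kb N ℓ) :=
  haveI : FiniteDimensional Kb⟮jBar (N * ℓ)⟯ (Fb (N * ℓ)) := (jBar_isSepVar (N * ℓ)).finite
  finiteAlong_of_transcendental _ (jBar (N * ℓ)) (jBar_transcendental N)

theorem heckeAlphaBarIntegral : HeckeAlphaBarIntegral Kb N ℓ :=
  isIntegral_of_finiteAlong _ (finiteAlong_heckeAlphaBar N ℓ)

theorem heckeBetaBarIntegral : HeckeBetaBarIntegral Kb N ℓ :=
  isIntegral_of_finiteAlong _ (finiteAlong_heckeBetaBar N ℓ)

instance hasPrincipalDivisors_Fb : HasPrincipalDivisors Kb (Fb N) :=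
  hasPrincipalDivisors (jBar_isSepVar N)

theorem fundamentalIdentityAlong_beta :
    FundamentalIdentityAlong Kb (heckeBetaBar Kb N ℓ) (heckeBetaBarIntegral N ℓ) :=
  fundamentalIdentityAlong_of_finite _ (finiteAlong_heckeBetaBar N ℓ)
    (isSeparable_along_of_charZero _ (finiteAlong_heckeBetaBar N ℓ)) _

theorem fundamentalIdentityAlong_alpha :
    FundamentalIdentityAlong Kb (heckeAlphaBar Kb N ℓ) (heckeAlphaBarIntegral N ℓ) :=
  fundamentalIdentityAlong_of_finite _ (finiteAlong_heckeAlphaBar N ℓ)
    (isSeparable_along_of_charZero _ (finiteAlong_heckeAlphaBar N ℓ)) _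

theorem normFormulaAlong_alpha :
    NormFormulaAlong Kb (heckeAlphaBar Kb N ℓ) (finiteAlong_heckeAlphaBar N ℓ) :=
  normFormulaAlong_of_finite _ (finiteAlong_heckeAlphaBar N ℓ)
    (isSeparable_along_of_charZero _ (finiteAlong_heckeAlphaBar N ℓ))

theorem normFormulaAlong_beta :
    NormFormulaAlong Kb (heckeBetaBar Kb N ℓ) (finiteAlong_heckeBetaBar N ℓ) :=
  normFormulaAlong_of_finite _ (finiteAlong_heckeBetaBar N ℓ)
    (isSeparable_along_of_charZero _ (finiteAlong_heckeBetaBar N ℓ))

/-- **(M1)**: the Prelude's Hecke inputs hold over `ℚ̄` for all levels `N` and all `ℓ`. -/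
theorem heckeInputsAlong : HeckeInputsAlong Kb N ℓ :=
  heckeInputsAlong_intro (hP := hasPrincipalDivisors_Fb (N * ℓ))
    (heckeAlphaBarIntegral N ℓ) (heckeBetaBarIntegral N ℓ)
    (fundamentalIdentityAlong_beta N ℓ) (finiteAlong_heckeAlphaBar N ℓ) (normFormulaAlong_alpha N ℓ)

/-- The Prelude's Hecke operator is the honest correspondence. -/
theorem heckeOperatorAlong_eq_heckePic0Bar :
    heckeOperatorAlong Kb N ℓ =
      heckePic0Bar (heckeAlphaBarIntegral N ℓ) (heckeBetaBarIntegral N ℓ)
        (fundamentalIdentityAlong_beta N ℓ) (finiteAlong_heckeAlphaBar N ℓ)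
        (normFormulaAlong_alpha N ℓ) :=
  heckeOperatorAlong_eq _ _ _ _ _

end Modular

end Fermat.Agent.Hecke
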