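import Mathlib
import Fermat.Agent.X0.Psi
import Fermat.Agent.Hecke.HeckeDegrees

/-!
# S37 (M4), node ES-DEG, part 2: the Atkin–Lehner involution `w_ℓ` of `F̄_{Nℓ}`

For a prime `ℓ ∤ N` the field `Fb (N * ℓ)` has a `Kb`-automorphism `atkinLehner N ℓ` which swaps
`j(q^d)` and `j(q^{dℓ})` for every `d ∣ N`; hence `w ∘ α = β` and `w ∘ β = α` for the two
degeneracy maps `α, β : Fb N → Fb (N * ℓ)`.  The proof is analytic (`X0/Psi.lean`): for the
polynomial ring `P = Kb[X_d, Y_d : d ∣ N]` and the evaluation `P → Rb (N ℓ)`, the swap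
`X_d ↔ Y_d` preserves the kernel because `Ψ(ev (swap p))(z) = Ψ(ev p)(W z)` where
`W z = γ₁ • (ℓ z)`, `γ₁ = [[x, y], [N, ℓ]] ∈ Γ₀(N)` (`ℓ x - N y = 1`):
`j(d · W z) = j(d ℓ z)` and `j(d ℓ · W z) = j(d z)` by `SL₂(ℤ)`-invariance of `j`.

Consequences: `finrankAlong Kb (heckeBetaBar Kb N ℓ) = ℓ + 1`.
-/

set_option autoImplicit false
set_option linter.style.haveILetI false
set_option linter.unusedSectionVars false

noncomputable section

namespace Fermat.Agent.Hecke.AL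

open UpperHalfPlane ModularCurve AlgebraicCurve Fermat.Agent.X0
open Fermat.Agent.S23 Fermat.Agent.S23.PrimEltQExp
open scoped MatrixGroups

/-! ## The analytic swap -/

theorem scaleH_mul (a b : ℕ) [NeZero a] [NeZero b] [NeZero (a * b)] (z : ℍ) :
    scaleH a (scaleH b z) = scaleH (a * b) z := by
  apply UpperHalfPlane.ext
  simp only [coe_scaleH]
  push_cast
  ring

/-- The analytic Atkin–Lehner map: there is `W : ℍ → ℍ` with `j(d · W z) = j(d ℓ z)` and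
`j(d ℓ · W z) = j(d z)` for all `d ∣ N`. -/
theorem exists_swap (N ℓ : ℕ) [NeZero N] [NeZero ℓ] (hcop : Nat.Coprime ℓ N) :
    ∃ W : ℍ → ℍ, ∀ (d : ℕ) [NeZero d] [NeZero (d * ℓ)], d ∣ N → ∀ z : ℍ,
      jAn (scaleH d (W z)) = jAn (scaleH (d * ℓ) z) ∧
      jAn (scaleH (d * ℓ) (W z)) = jAn (scaleH d z) := by
  -- Bezout: `ℓ x - N y = 1`
  obtain ⟨x, y, hxy⟩ : ∃ x y : ℤ, (ℓ : ℤ) * x - (N : ℤ) * y = 1 := by
    have h := (Nat.isCoprime_iff_coprime.mpr hcop)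
    obtain ⟨a, b, hab⟩ := h
    exact ⟨a, -b, by linarith⟩
  have hdet1 : Matrix.det !![x, y; (N : ℤ), (ℓ : ℤ)] = 1 := by
    rw [Matrix.det_fin_two_of]; linarith
  have hdet3 : Matrix.det !![(ℓ : ℤ) * x, y; (N : ℤ), 1] = 1 := by
    rw [Matrix.det_fin_two_of]; linarith
  let γ1 : SL(2, ℤ) := ⟨!![x, y; (N : ℤ), (ℓ : ℤ)], hdet1⟩
  let γ3 : SL(2, ℤ) := ⟨!![(ℓ : ℤ) * x, y; (N : ℤ), 1], hdet3⟩
  have hγ1 : γ1 ∈ CongruenceSubgroup.Gamma0 N := by
    rw [CongruenceSubgroup.Gamma0_mem]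
    show (((N : ℤ) : ℤ) : ZMod N) = 0
    simp
  have hγ3 : γ3 ∈ CongruenceSubgroup.Gamma0 N := by
    rw [CongruenceSubgroup.Gamma0_mem]
    show (((N : ℤ) : ℤ) : ZMod N) = 0
    simp
  -- `ℓ · (γ₁ • (ℓ z)) = γ₃ • z`
  have hkey : ∀ z : ℍ, scaleH ℓ (γ1 • scaleH ℓ z) = γ3 • z := by
    intro z
    apply UpperHalfPlane.ext
    have h1 : γ1 0 0 = x := rfl
    have h2 : γ1 0 1 = y := rfl
    have h3 : γ1 1 0 = (N : ℤ) := rfl
    have h4 : γ1 1 1 = (ℓ : ℤ) := rfl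
    have g1 : γ3 0 0 = (ℓ : ℤ) * x := rfl
    have g2 : γ3 0 1 = y := rfl
    have g3 : γ3 1 0 = (N : ℤ) := rfl
    have g4 : γ3 1 1 = 1 := rfl
    rw [coe_scaleH, coe_specialLinearGroup_apply, coe_specialLinearGroup_apply γ3, coe_scaleH,
      h1, h2, h3, h4, g1, g2, g3, g4]
    simp only [algebraMap_int_eq, eq_intCast, Int.cast_mul, Int.cast_natCast, Int.cast_one]
    push_cast
    have hℓ0 : (ℓ : ℂ) ≠ 0 := Nat.cast_ne_zero.mpr (NeZero.ne ℓ)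
    have hden : ((N : ℂ) * (z : ℂ) + 1) ≠ 0 := by
      intro h0
      have him := congrArg Complex.im h0
      simp only [Complex.add_im, Complex.mul_im, Complex.natCast_re, Complex.natCast_im,
        Complex.one_im, Complex.zero_im, zero_mul, add_zero, coe_im] at him
      have hN : (0 : ℝ) < N := Nat.cast_pos.mpr (NeZero.pos N)
      have := mul_pos hN z.im_pos
      linarith
    have hden' : ((N : ℂ) * ((ℓ : ℂ) * (z : ℂ)) + (ℓ : ℂ)) ≠ 0 := by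
      have : (N : ℂ) * ((ℓ : ℂ) * (z : ℂ)) + (ℓ : ℂ) = (ℓ : ℂ) * ((N : ℂ) * (z : ℂ) + 1) := by ring
      rw [this]
      exact mul_ne_zero hℓ0 hden
    field_simp
  refine ⟨fun z => γ1 • scaleH ℓ z, ?_⟩
  intro d _ _ hd z
  constructor
  · rw [jAn_scaleH_smul hd γ1 hγ1, scaleH_mul]
  · rw [← scaleH_mul d ℓ, hkey, jAn_scaleH_smul hd γ3 hγ3]


/-! ## The generators -/

section Algebraic

variable (N ℓ : ℕ) [NeZero N] [NeZero ℓ]

/-- Index type for the generators `j(q^d)`, `j(q^{dℓ})` (`d ∣ N`) of `Rb (N * ℓ)`. -/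
abbrev Idx : Type := {d : ℕ // d ∣ N} × Bool

/-- The level of a generator. -/
def lev (i : Idx N) : ℕ := if i.2 then i.1.1 * ℓ else i.1.1

instance neZero_lev (i : Idx N) : NeZero (lev N ℓ i) := by
  have hd : i.1.1 ≠ 0 := ne_zero_of_dvd_ne_zero (NeZero.ne N) i.1.2
  refine ⟨?_⟩
  unfold lev
  split_ifs
  · exact Nat.mul_ne_zero hd (NeZero.ne ℓ)
  · exact hd

theorem lev_dvd (i : Idx N) : lev N ℓ i ∣ N * ℓ := by
  unfold lev
  split_ifs
  · exact Nat.mul_dvd_mul_right i.1.2 ℓ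
  · exact Dvd.dvd.mul_right i.1.2 ℓ

/-- The swap of the two families of generators. -/
def swap (i : Idx N) : Idx N := (i.1, !i.2)

theorem swap_swap (i : Idx N) : swap N (swap N i) = i := by
  simp [swap]

theorem swap_comp_swap : swap N ∘ swap N = id := funext (swap_swap N)

/-- The generators `j(q^d)`, `j(q^{dℓ})`. -/
def gen (i : Idx N) : Fb (N * ℓ) := jBarD (N * ℓ) (lev N ℓ i) (lev_dvd N ℓ i)

theorem gen_mem_Rb (i : Idx N) : gen N ℓ i ∈ Rb (N * ℓ) := jBarD_mem_Rb _ _ _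

theorem jBarD_congr (M : ℕ) {d d' : ℕ} [NeZero d] [NeZero d'] (h : d = d') (hd : d ∣ M)
    (hd' : d' ∣ M) : jBarD M d hd = jBarD M d' hd' := by
  subst h
  rfl

theorem scaleH_congr {d d' : ℕ} [NeZero d] [NeZero d'] (h : d = d') (z : ℍ) :
    scaleH d z = scaleH d' z := by
  subst h
  rfl

/-- Every generator of `Rb (N * ℓ)` is a `gen`. -/
theorem genSetB_subset_range (hℓ : ℓ.Prime) : genSetB (N * ℓ) ⊆ Set.range (gen N ℓ) := by
  rintro x ⟨e, he0, he, rfl⟩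
  by_cases hle : ℓ ∣ e
  · obtain ⟨e', rfl⟩ := hle
    have he' : e' ∣ N := by
      rw [mul_comm N ℓ] at he
      exact Nat.dvd_of_mul_dvd_mul_left hℓ.pos he
    refine ⟨(⟨e', he'⟩, true), ?_⟩
    exact jBarD_congr _ (by simp [lev, mul_comm]) _ _
  · have he' : e ∣ N := by
      have hc : Nat.Coprime e ℓ := ((Nat.Prime.coprime_iff_not_dvd hℓ).mpr hle).symm
      exact hc.dvd_of_dvd_mul_right he
    refine ⟨(⟨e, he'⟩, false), ?_⟩
    exact jBarD_congr _ (by simp [lev]) _ _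

theorem range_gen_subset : Set.range (gen N ℓ) ⊆ genSetB (N * ℓ) := by
  rintro _ ⟨i, rfl⟩
  exact jBarD_mem_genSetB _ _ _

/-- The evaluation `Kb[X_i] → Rb (N ℓ)`. -/
def evR : MvPolynomial (Idx N) Kb →ₐ[Kb] Rb (N * ℓ) :=
  (MvPolynomial.aeval (gen N ℓ)).codRestrict (Rb (N * ℓ)) (by
    intro p
    have h1 : MvPolynomial.aeval (gen N ℓ) p ∈ (MvPolynomial.aeval (R := Kb) (gen N ℓ)).range :=
      ⟨p, rfl⟩
    rw [← Algebra.adjoin_range_eq_range_aeval] at h1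
    exact Algebra.adjoin_mono (range_gen_subset N ℓ) h1)

theorem coe_evR (p : MvPolynomial (Idx N) Kb) :
    ((evR N ℓ p : Rb (N * ℓ)) : Fb (N * ℓ)) = MvPolynomial.aeval (gen N ℓ) p := rfl

theorem evR_X (i : Idx N) : evR N ℓ (MvPolynomial.X i) = ⟨gen N ℓ i, gen_mem_Rb N ℓ i⟩ :=
  Subtype.ext (by rw [coe_evR, MvPolynomial.aeval_X])

theorem evR_surjective (hℓ : ℓ.Prime) : Function.Surjective (evR N ℓ) := by
  rintro ⟨r, hr⟩
  have h1 : r ∈ Algebra.adjoin Kb (Set.range (gen N ℓ)) :=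
    Algebra.adjoin_mono (genSetB_subset_range N ℓ hℓ) hr
  rw [Algebra.adjoin_range_eq_range_aeval] at h1
  obtain ⟨p, hp⟩ := h1
  exact ⟨p, Subtype.ext hp⟩

/-- `Ψ ∘ ev` is evaluation at the points `j(lev i · z)`. -/
theorem Psi_evR (p : MvPolynomial (Idx N) Kb) (z : ℍ) :
    Psi (N * ℓ) (evR N ℓ p) z =
      MvPolynomial.eval₂ iotaC (fun i => jAn (scaleH (lev N ℓ i) z)) p := by
  have h : ((Pi.evalRingHom (fun _ : ℍ => ℂ) z).comp
      ((Psi (N * ℓ)).comp (evR N ℓ).toRingHom)) =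
      MvPolynomial.eval₂Hom iotaC (fun i => jAn (scaleH (lev N ℓ i) z)) := by
    apply MvPolynomial.ringHom_ext
    · intro r
      have e1 : (evR N ℓ).toRingHom (MvPolynomial.C r) = algebraMap Kb (Rb (N * ℓ)) r := by
        rw [← MvPolynomial.algebraMap_eq]
        exact (evR N ℓ).commutes r
      simp only [RingHom.coe_comp, Function.comp_apply, Pi.evalRingHom_apply, e1, Psi_algebraMap,
        MvPolynomial.coe_eval₂Hom, MvPolynomial.eval₂_C]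
    · intro i
      have e1 : (evR N ℓ).toRingHom (MvPolynomial.X i) = ⟨gen N ℓ i, gen_mem_Rb N ℓ i⟩ :=
        evR_X N ℓ i
      simp only [RingHom.coe_comp, Function.comp_apply, Pi.evalRingHom_apply, e1,
        MvPolynomial.coe_eval₂Hom, MvPolynomial.eval₂_X]
      unfold gen
      rw [Psi_jBarD]
  exact congrArg (fun f => f p) h

/-- The swap preserves the kernel of the evaluation. -/
theorem evR_rename_swap_eq_zero (hcop : Nat.Coprime ℓ N) (p : MvPolynomial (Idx N) Kb)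
    (hp : evR N ℓ p = 0) : evR N ℓ (MvPolynomial.rename (swap N) p) = 0 := by
  obtain ⟨W, hW⟩ := exists_swap N ℓ hcop
  apply Psi_injective
  funext z
  rw [Psi_evR, MvPolynomial.eval₂_rename, map_zero]
  have h2 : ((fun i => jAn (scaleH (lev N ℓ i) z)) ∘ swap N) =
      fun i => jAn (scaleH (lev N ℓ i) (W z)) := by
    funext i
    obtain ⟨⟨d, hd⟩, b⟩ := i
    haveI : NeZero d := ⟨ne_zero_of_dvd_ne_zero (NeZero.ne N) hd⟩
    obtain ⟨h1, h2⟩ := hW d hd z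
    cases b
    · -- `i = (d, false)`, `swap i = (d, true)`
      show jAn (scaleH (lev N ℓ (⟨d, hd⟩, true)) z) = jAn (scaleH (lev N ℓ (⟨d, hd⟩, false)) (W z))
      rw [scaleH_congr (d := lev N ℓ (⟨d, hd⟩, true)) (d' := d * ℓ) (by simp [lev]),
        scaleH_congr (d := lev N ℓ (⟨d, hd⟩, false)) (d' := d) (by simp [lev]), h1]
    · show jAn (scaleH (lev N ℓ (⟨d, hd⟩, false)) z) = jAn (scaleH (lev N ℓ (⟨d, hd⟩, true)) (W z))
      rw [scaleH_congr (d := lev N ℓ (⟨d, hd⟩, true)) (d' := d * ℓ) (by simp [lev]),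
        scaleH_congr (d := lev N ℓ (⟨d, hd⟩, false)) (d' := d) (by simp [lev]), h2]
  rw [h2, ← Psi_evR, hp, map_zero]
  rfl


/-! ## The involution on `Rb (N ℓ)` -/

variable {N ℓ}

/-- The Atkin–Lehner involution on `Rb (N * ℓ)`, as an algebra endomorphism. -/
def wR (hℓ : ℓ.Prime) (hcop : Nat.Coprime ℓ N) : Rb (N * ℓ) →ₐ[Kb] Rb (N * ℓ) :=
  (Ideal.Quotient.liftₐ (RingHom.ker (evR N ℓ)) ((evR N ℓ).comp (MvPolynomial.rename (swap N)))
      (fun a ha => evR_rename_swap_eq_zero N ℓ hcop a (RingHom.mem_ker.mp ha))).comp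
    (Ideal.quotientKerAlgEquivOfSurjective (evR_surjective N ℓ hℓ)).symm.toAlgHom

theorem wR_evR (hℓ : ℓ.Prime) (hcop : Nat.Coprime ℓ N) (p : MvPolynomial (Idx N) Kb) :
    wR hℓ hcop (evR N ℓ p) = evR N ℓ (MvPolynomial.rename (swap N) p) := by
  unfold wR
  rw [AlgHom.comp_apply]
  have h1 : (Ideal.quotientKerAlgEquivOfSurjective (evR_surjective N ℓ hℓ)).symm.toAlgHom
      (evR N ℓ p) = Ideal.Quotient.mk (RingHom.ker (evR N ℓ)) p :=
    Ideal.quotientKerAlgEquivOfSurjective_symm_apply (evR_surjective N ℓ hℓ) p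
  rw [h1, Ideal.Quotient.liftₐ_apply, Ideal.Quotient.lift_mk]
  rfl

theorem wR_wR (hℓ : ℓ.Prime) (hcop : Nat.Coprime ℓ N) (r : Rb (N * ℓ)) :
    wR hℓ hcop (wR hℓ hcop r) = r := by
  obtain ⟨p, rfl⟩ := evR_surjective N ℓ hℓ r
  rw [wR_evR, wR_evR, MvPolynomial.rename_rename, swap_comp_swap, MvPolynomial.rename_id]
  rfl

theorem wR_gen (hℓ : ℓ.Prime) (hcop : Nat.Coprime ℓ N) (i : Idx N) :
    wR hℓ hcop ⟨gen N ℓ i, gen_mem_Rb N ℓ i⟩ = ⟨gen N ℓ (swap N i), gen_mem_Rb N ℓ _⟩ := by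
  rw [← evR_X, wR_evR, MvPolynomial.rename_X, evR_X]

/-- The Atkin–Lehner involution on `Rb (N * ℓ)`, as an algebra automorphism. -/
def wREquiv (hℓ : ℓ.Prime) (hcop : Nat.Coprime ℓ N) : Rb (N * ℓ) ≃ₐ[Kb] Rb (N * ℓ) :=
  AlgEquiv.ofAlgHom (wR hℓ hcop) (wR hℓ hcop)
    (AlgHom.ext fun r => wR_wR hℓ hcop r) (AlgHom.ext fun r => wR_wR hℓ hcop r)

/-! ## The involution on `Fb (N ℓ)` -/

/-- **The Atkin–Lehner involution** `w_ℓ` of `Fb (N * ℓ)` (`ℓ` prime, `ℓ ∤ N`). -/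
def atkinLehner (hℓ : ℓ.Prime) (hcop : Nat.Coprime ℓ N) : Fb (N * ℓ) ≃ₐ[Kb] Fb (N * ℓ) :=
  AlgEquiv.ofRingEquiv
    (f := (IsFractionRing.ringEquivOfRingEquiv (K := Fb (N * ℓ)) (L := Fb (N * ℓ))
      (wREquiv hℓ hcop).toRingEquiv)) (by
    intro c
    have h1 : algebraMap Kb (Fb (N * ℓ)) c =
        algebraMap (Rb (N * ℓ)) (Fb (N * ℓ)) (algebraMap Kb (Rb (N * ℓ)) c) := rfl
    rw [h1, IsFractionRing.ringEquivOfRingEquiv_algebraMap]
    congr 1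
    exact (wREquiv hℓ hcop).commutes c)

theorem atkinLehner_coe (hℓ : ℓ.Prime) (hcop : Nat.Coprime ℓ N) (r : Rb (N * ℓ)) :
    atkinLehner hℓ hcop (r : Fb (N * ℓ)) = ((wR hℓ hcop r : Rb (N * ℓ)) : Fb (N * ℓ)) := by
  have h := IsFractionRing.ringEquivOfRingEquiv_algebraMap (K := Fb (N * ℓ)) (L := Fb (N * ℓ))
    (wREquiv hℓ hcop).toRingEquiv r
  exact h

theorem atkinLehner_gen (hℓ : ℓ.Prime) (hcop : Nat.Coprime ℓ N) (i : Idx N) :
    atkinLehner hℓ hcop (gen N ℓ i) = gen N ℓ (swap N i) := by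
  have h := atkinLehner_coe hℓ hcop ⟨gen N ℓ i, gen_mem_Rb N ℓ i⟩
  rw [wR_gen] at h
  exact h

theorem atkinLehner_atkinLehner (hℓ : ℓ.Prime) (hcop : Nat.Coprime ℓ N) (f : Fb (N * ℓ)) :
    atkinLehner hℓ hcop (atkinLehner hℓ hcop f) = f := by
  obtain ⟨g, h, -, rfl⟩ := exists_Rb_div (N * ℓ) f
  rw [map_div₀, map_div₀, atkinLehner_coe, atkinLehner_coe, atkinLehner_coe, atkinLehner_coe,
    wR_wR, wR_wR]

/-! ## Compatibility with the degeneracy maps -/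

/-- Two algebra homomorphisms out of `Fb N` which agree on the `j(q^d)` are equal. -/
theorem algHom_ext_Fb {E : Type*} [Field E] [Algebra Kb E] (M : ℕ) (φ ψ : Fb M →ₐ[Kb] E)
    (h : ∀ (d : ℕ) [NeZero d] (hd : d ∣ M), φ (jBarD M d hd) = ψ (jBarD M d hd)) : φ = ψ := by
  have hR : ∀ r : Fb M, r ∈ Rb M → φ r = ψ r := by
    intro r hr
    unfold Rb at hr
    induction hr using Algebra.adjoin_induction with
    | mem x hx =>
      obtain ⟨d, hd0, hd, rfl⟩ := hx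
      exact h d hd
    | algebraMap c => rw [φ.commutes, ψ.commutes]
    | add x y _ _ hx hy => rw [map_add, map_add, hx, hy]
    | mul x y _ _ hx hy => rw [map_mul, map_mul, hx, hy]
  apply AlgHom.ext
  intro f
  obtain ⟨g, k, -, rfl⟩ := exists_Rb_div M f
  rw [map_div₀, map_div₀, hR g g.2, hR k k.2]

variable (N ℓ)

theorem heckeAlphaBar_jBarD (d : ℕ) [NeZero d] (hd : d ∣ N) :
    heckeAlphaBar Kb N ℓ (jBarD N d hd) = jBarD (N * ℓ) d (Dvd.dvd.mul_right hd ℓ) :=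
  Subtype.ext (by rw [coe_heckeAlphaBar]; rfl)

theorem heckeBetaBar_jBarD (d : ℕ) [NeZero d] (hd : d ∣ N) :
    heckeBetaBar Kb N ℓ (jBarD N d hd) = jBarD (N * ℓ) (d * ℓ) (Nat.mul_dvd_mul_right hd ℓ) := by
  apply Subtype.ext
  rw [coe_heckeBetaBar]
  show qExpand Kb ℓ (coeffEmb Kb (qExpand ℚ d jq)) = coeffEmb Kb (qExpand ℚ (d * ℓ) jq)
  unfold coeffEmb
  rw [← ModularCurve.coeffMap_qExpand, qExpand_qExpand]
  congr 1
  exact qExpand_congr (mul_comm ℓ d) _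

variable {N ℓ}

/-- `w ∘ α = β`. -/
theorem atkinLehner_alpha (hℓ : ℓ.Prime) (hcop : Nat.Coprime ℓ N) (x : Fb N) :
    atkinLehner hℓ hcop (heckeAlphaBar Kb N ℓ x) = heckeBetaBar Kb N ℓ x := by
  have h := algHom_ext_Fb N ((atkinLehner hℓ hcop).toAlgHom.comp (heckeAlphaBar Kb N ℓ))
    (heckeBetaBar Kb N ℓ) (by
      intro d _ hd
      rw [AlgHom.comp_apply, heckeAlphaBar_jBarD, heckeBetaBar_jBarD]
      have e1 : jBarD (N * ℓ) d (Dvd.dvd.mul_right hd ℓ) = gen N ℓ (⟨d, hd⟩, false) :=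
        jBarD_congr _ (by simp [lev]) _ _
      have e2 : jBarD (N * ℓ) (d * ℓ) (Nat.mul_dvd_mul_right hd ℓ) = gen N ℓ (⟨d, hd⟩, true) :=
        jBarD_congr _ (by simp [lev]) _ _
      rw [e1, e2]
      exact atkinLehner_gen hℓ hcop _)
  exact congrArg (fun f => f x) h

/-- `w ∘ β = α`. -/
theorem atkinLehner_beta (hℓ : ℓ.Prime) (hcop : Nat.Coprime ℓ N) (x : Fb N) :
    atkinLehner hℓ hcop (heckeBetaBar Kb N ℓ x) = heckeAlphaBar Kb N ℓ x := by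
  rw [← atkinLehner_alpha hℓ hcop, atkinLehner_atkinLehner]

/-- **Degree of `β`**: `[F̄_{Nℓ} : β(F̄_N)] = ℓ + 1` for a prime `ℓ ∤ N`. -/
theorem finrankAlong_heckeBetaBar (hℓ : ℓ.Prime) (hℓN : ¬ ℓ ∣ N) :
    finrankAlong Kb (heckeBetaBar Kb N ℓ) = ℓ + 1 := by
  have hcop : Nat.Coprime ℓ N := (Nat.Prime.coprime_iff_not_dvd hℓ).mpr hℓN
  rw [← Deg.finrankAlong_eq_of_equiv (heckeAlphaBar Kb N ℓ) (heckeBetaBar Kb N ℓ)
    (atkinLehner hℓ hcop) (atkinLehner_alpha hℓ hcop)]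
  exact Deg.finrankAlong_heckeAlphaBar N ℓ hℓ hℓN

end Algebraic

end Fermat.Agent.Hecke.AL
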