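import Fermat.Agent.Hecke.HeckeInputs

/-!
# Hecke inputs over an arbitrary constant field of characteristic zero (hypothesis form)

`Hecke/HeckeInputs.lean` proves the Prelude's `HeckeInputsAlong ℚ̄ N ℓ`.  For Program J the same
statement is needed over `ℂ`.  Here it is proved over ANY field `L` of characteristic zero
(`[Algebra ℚ L]`), from three facts about the function fields
`FL L M := laurentBaseChange L (modularFunctionFieldFull M)`:

* `HasPrincipalDivisors L (FL L (N * ℓ))`;
* `FL L (N * ℓ)` is finite over `L⟮x⟯` for some `x`;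
* `FL L N` contains an element transcendental over `L`.

Outputs: `heckeInputsAlong_of`, `heckeOperatorAlong_eq_of`, `heckeDivBar_principal_of`
(`T_ℓ (div y) = div (Nm_{F'/αF} (β y))`), `transcendental_coeffEmb_jq_gen` (the `j`-series is
transcendental over every `L`).
-/

set_option autoImplicit false
set_option linter.unusedSectionVars false
set_option linter.style.haveILetI false

open AlgebraicCurve IntermediateField ModularCurve

namespace Fermat.Agent.Hecke.Gen

variable (L : Type*) [Field L] [Algebra ℚ L]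

/-- The function field of `X₀(M)` over `L` (Prelude's Laurent model). -/
abbrev FL (M : ℕ) : Type _ := ↥(laurentBaseChange L (modularFunctionFieldFull M))

variable (N ℓ : ℕ) [NeZero N] [NeZero ℓ]

section Inputs

variable [CharZero L]

instance charZero_FL (M : ℕ) : CharZero (FL L M) :=
  charZero_of_injective_algebraMap (algebraMap L (FL L M)).injective

variable {L}

theorem finiteAlong_heckeAlphaBar_of (x : FL L (N * ℓ)) [FiniteDimensional L⟮x⟯ (FL L (N * ℓ))]
    {y : FL L N} (hy : Transcendental L y) : FiniteAlong L (heckeAlphaBar L N ℓ) :=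
  finiteAlong_of_transcendental _ x hy

theorem finiteAlong_heckeBetaBar_of (x : FL L (N * ℓ)) [FiniteDimensional L⟮x⟯ (FL L (N * ℓ))]
    {y : FL L N} (hy : Transcendental L y) : FiniteAlong L (heckeBetaBar L N ℓ) :=
  finiteAlong_of_transcendental _ x hy

theorem heckeAlphaBarIntegral_of (x : FL L (N * ℓ)) [FiniteDimensional L⟮x⟯ (FL L (N * ℓ))]
    {y : FL L N} (hy : Transcendental L y) : HeckeAlphaBarIntegral L N ℓ :=
  isIntegral_of_finiteAlong _ (finiteAlong_heckeAlphaBar_of N ℓ x hy)

theorem heckeBetaBarIntegral_of (x : FL L (N * ℓ)) [FiniteDimensional L⟮x⟯ (FL L (N * ℓ))]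
    {y : FL L N} (hy : Transcendental L y) : HeckeBetaBarIntegral L N ℓ :=
  isIntegral_of_finiteAlong _ (finiteAlong_heckeBetaBar_of N ℓ x hy)

theorem fundamentalIdentityAlong_beta_of [HasPrincipalDivisors L (FL L (N * ℓ))]
    (x : FL L (N * ℓ)) [FiniteDimensional L⟮x⟯ (FL L (N * ℓ))]
    {y : FL L N} (hy : Transcendental L y) :
    FundamentalIdentityAlong L (heckeBetaBar L N ℓ) (heckeBetaBarIntegral_of N ℓ x hy) :=
  fundamentalIdentityAlong_of_finite _ (finiteAlong_heckeBetaBar_of N ℓ x hy)
    (isSeparable_along_of_charZero _ (finiteAlong_heckeBetaBar_of N ℓ x hy)) _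

theorem fundamentalIdentityAlong_alpha_of [HasPrincipalDivisors L (FL L (N * ℓ))]
    (x : FL L (N * ℓ)) [FiniteDimensional L⟮x⟯ (FL L (N * ℓ))]
    {y : FL L N} (hy : Transcendental L y) :
    FundamentalIdentityAlong L (heckeAlphaBar L N ℓ) (heckeAlphaBarIntegral_of N ℓ x hy) :=
  fundamentalIdentityAlong_of_finite _ (finiteAlong_heckeAlphaBar_of N ℓ x hy)
    (isSeparable_along_of_charZero _ (finiteAlong_heckeAlphaBar_of N ℓ x hy)) _

theorem normFormulaAlong_alpha_of (x : FL L (N * ℓ)) [FiniteDimensional L⟮x⟯ (FL L (N * ℓ))]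
    {y : FL L N} (hy : Transcendental L y) :
    NormFormulaAlong L (heckeAlphaBar L N ℓ) (finiteAlong_heckeAlphaBar_of N ℓ x hy) :=
  normFormulaAlong_of_finite _ (finiteAlong_heckeAlphaBar_of N ℓ x hy)
    (isSeparable_along_of_charZero _ (finiteAlong_heckeAlphaBar_of N ℓ x hy))

theorem normFormulaAlong_beta_of (x : FL L (N * ℓ)) [FiniteDimensional L⟮x⟯ (FL L (N * ℓ))]
    {y : FL L N} (hy : Transcendental L y) :
    NormFormulaAlong L (heckeBetaBar L N ℓ) (finiteAlong_heckeBetaBar_of N ℓ x hy) :=
  normFormulaAlong_of_finite _ (finiteAlong_heckeBetaBar_of N ℓ x hy)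
    (isSeparable_along_of_charZero _ (finiteAlong_heckeBetaBar_of N ℓ x hy))

/-- **The Prelude's Hecke inputs over `L`** (hypothesis form). -/
theorem heckeInputsAlong_of [HasPrincipalDivisors L (FL L (N * ℓ))]
    (x : FL L (N * ℓ)) [FiniteDimensional L⟮x⟯ (FL L (N * ℓ))]
    {y : FL L N} (hy : Transcendental L y) : HeckeInputsAlong L N ℓ :=
  heckeInputsAlong_intro
    (heckeAlphaBarIntegral_of N ℓ x hy) (heckeBetaBarIntegral_of N ℓ x hy)
    (fundamentalIdentityAlong_beta_of N ℓ x hy) (finiteAlong_heckeAlphaBar_of N ℓ x hy)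
    (normFormulaAlong_alpha_of N ℓ x hy)

/-- The Prelude's Hecke operator over `L` is the honest correspondence. -/
theorem heckeOperatorAlong_eq_of [HasPrincipalDivisors L (FL L (N * ℓ))]
    (x : FL L (N * ℓ)) [FiniteDimensional L⟮x⟯ (FL L (N * ℓ))]
    {y : FL L N} (hy : Transcendental L y) :
    heckeOperatorAlong L N ℓ =
      heckePic0Bar (heckeAlphaBarIntegral_of N ℓ x hy) (heckeBetaBarIntegral_of N ℓ x hy)
        (fundamentalIdentityAlong_beta_of N ℓ x hy) (finiteAlong_heckeAlphaBar_of N ℓ x hy)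
        (normFormulaAlong_alpha_of N ℓ x hy) :=
  heckeOperatorAlong_eq _ _ _ _ _

/-- The norm `Nm_{F_{Nℓ}/α(F_N)}` over `L`. -/
noncomputable def normAlphaL (z : FL L (N * ℓ)) : FL L N :=
  letI := algebraAlong (heckeAlphaBar L N ℓ)
  Algebra.norm (FL L N) z

/-- **(ES-D) over `L`**: on principal divisors the Hecke correspondence is the norm. -/
theorem heckeDivBar_principal_of [HasPrincipalDivisors L (FL L (N * ℓ))]
    (x : FL L (N * ℓ)) [FiniteDimensional L⟮x⟯ (FL L (N * ℓ))]
    {y : FL L N} (hy : Transcendental L y)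
    (f : FL L N) (hf : f ≠ 0) (D : Divisor L (FL L N))
    (hD : ∀ P, D P = P.ord f) (P : Place L (FL L N)) :
    heckeDivBar (heckeAlphaBarIntegral_of N ℓ x hy) (heckeBetaBarIntegral_of N ℓ x hy) D P =
      P.ord (normAlphaL N ℓ (heckeBetaBar L N ℓ f)) := by
  have hinj : Function.Injective (heckeBetaBar L N ℓ) :=
    (heckeBetaBar L N ℓ).toRingHom.injective
  have hβf : heckeBetaBar L N ℓ f ≠ 0 := fun h => hf (hinj (h.trans (map_zero _).symm))
  have hpull : ∀ w : Place L (FL L (N * ℓ)),
      Divisor.pullbackAlong (heckeBetaBar L N ℓ) (heckeBetaBarIntegral_of N ℓ x hy) D w =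
        w.ord (heckeBetaBar L N ℓ f) := by
    intro w
    letI := algebraAlong (heckeBetaBar L N ℓ)
    haveI := isScalarTower_along (heckeBetaBar L N ℓ)
    haveI := isIntegral_along (heckeBetaBar L N ℓ) (heckeBetaBarIntegral_of N ℓ x hy)
    exact Divisor.pullback_apply_eq_ord hD w
  have hN := normFormulaAlong_alpha_of N ℓ x hy
  unfold heckeDivBar
  rw [Divisor.correspondence_apply]
  exact hN (heckeBetaBar L N ℓ f) hβf _ hpull P

end Inputs

section JTrans

open HahnSeries Polynomial

/-- The `(-n)`-th coefficient of `p(j)` for `p` of degree `≤ n` is the `n`-th coefficient of `p`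
(over any field `L ⊇ ℚ`). -/
theorem coeff_aeval_jq_neg_gen (p : Polynomial L) (n : ℕ) (hn : p.natDegree ≤ n) :
    (Polynomial.aeval (coeffEmb L jq) p).coeff (-(n : ℤ)) = p.coeff n := by
  rw [Polynomial.aeval_eq_sum_range' (Nat.lt_succ_of_le hn)]
  rw [HahnSeries.coeff_sum]
  rw [Finset.sum_eq_single n]
  · rw [Algebra.smul_def, algebraMap_laurentSeries_eq_single, HahnSeries.coeff_single_mul,
      sub_zero, ← map_pow, coeffEmb_coeff, coeff_jq_pow_self]
    simp
  · intro i hi hin
    have hlt : i < n := lt_of_le_of_ne (Nat.lt_succ_iff.mp (Finset.mem_range.mp hi)) hin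
    rw [Algebra.smul_def, algebraMap_laurentSeries_eq_single, HahnSeries.coeff_single_mul,
      sub_zero, ← map_pow, coeffEmb_coeff,
      coeff_jq_pow_of_lt (by exact_mod_cast (neg_lt_neg (Int.ofNat_lt.mpr hlt)))]
    simp
  · intro h
    exact absurd (Finset.mem_range.mpr (Nat.lt_succ_self n)) h

/-- The `j`-series is transcendental over every field `L ⊇ ℚ`. -/
theorem transcendental_coeffEmb_jq_gen : Transcendental L (coeffEmb L jq) := by
  rw [transcendental_iff]
  intro p hp
  by_contra hne
  have h := coeff_aeval_jq_neg_gen L p p.natDegree le_rfl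
  rw [hp] at h
  exact hne (Polynomial.leadingCoeff_eq_zero.mp (by simpa using h.symm))

/-- `j` as an element of the function field of `X₀(M)` over `L`. -/
noncomputable def jL (M : ℕ) [NeZero M] : FL L M :=
  ⟨coeffEmb L jq, by
    have h := jqd_mem_full M (one_dvd M)
    rw [qExpand_one_apply] at h
    exact coeffEmb_mem_laurentBaseChange L h⟩

@[simp] theorem coe_jL (M : ℕ) [NeZero M] :
    ((jL L M : FL L M) : LaurentSeries L) = coeffEmb L jq := rfl

theorem jL_transcendental (M : ℕ) [NeZero M] : Transcendental L (jL L M) := by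
  have h := transcendental_coeffEmb_jq_gen L
  rw [transcendental_iff] at h ⊢
  intro p hp
  apply h
  have h2 := congrArg (fun x : FL L M => (x : LaurentSeries L)) hp
  have h3 : ((Polynomial.aeval (jL L M) p : FL L M) : LaurentSeries L)
      = Polynomial.aeval ((jL L M : FL L M) : LaurentSeries L) p := by
    rw [← IntermediateField.algebraMap_apply, ← Polynomial.aeval_algebraMap_apply]
    rfl
  change ((Polynomial.aeval (jL L M) p : FL L M) : LaurentSeries L) = 0 at h2
  rw [h3, coe_jL] at h2
  exact h2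

/-- **Hecke inputs over `L`** from `HasPrincipalDivisors` and finiteness over `L(j)` at level
`N * ℓ` only. -/
theorem heckeInputsAlong_of_finite_over_j [CharZero L]
    [HasPrincipalDivisors L (FL L (N * ℓ))]
    [FiniteDimensional L⟮jL L (N * ℓ)⟯ (FL L (N * ℓ))] : HeckeInputsAlong L N ℓ :=
  heckeInputsAlong_of N ℓ (jL L (N * ℓ)) (jL_transcendental L N)

end JTrans

end Fermat.Agent.Hecke.Gen
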