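import Mathlib
import Fermat.Agent.Red.FFLemmas

/-!
# S37 / ES-N, node ES-1: the constancy lemma

`F/K` a function field with Riemann's inequality (`RiemannPkg K F`), `Ft/k` a second function
field all of whose places have degree one.  Let `G H : Divisor K F →+ Divisor k Ft` be two
positive additive maps which multiply degrees by the same constant `c` and which agree on all
principal divisors.  Then `G D = H D` for every divisor `D` of degree `0`
(`eq_of_eq_on_principal`).

Proof: `δ := G - H` kills principal divisors.  For two places `P`, `P₂` and `m ≥ 1` Riemann's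
inequality gives `f ≠ 0` with `div f = E - (m P - m P₂ + g P)`, `E ≥ 0` of degree `g`.  Hence
`m (δ P - δ P₂) = G E - H E - g δ P` has coefficients bounded independently of `m`; so
`δ P = δ P₂`, and `δ D = (deg D) δ P`.
-/

set_option autoImplicit false

namespace Fermat.Agent.Hecke

open AlgebraicCurve Fermat.Agent.Red

variable {K F k Ft : Type*} [Field K] [Field F] [Algebra K F] [Field k] [Field Ft] [Algebra k Ft]

/-- On a function field all of whose places have degree one, a coefficient of an effective
divisor is bounded by its degree. -/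
theorem apply_le_degree_of_nonneg (hdeg : ∀ Q : Place k Ft, Q.deg = 1) {E : Divisor k Ft}
    (hE : 0 ≤ E) (Q : Place k Ft) : E Q ≤ Divisor.degree E := by
  classical
  have hsum : Divisor.degree E = E.sum fun _ n => n := by
    induction E using Finsupp.induction with
    | zero => simp
    | single_add P n D hP hn ih =>
      have hD : 0 ≤ D := by
        intro R
        by_cases hR : R = P
        · subst hR
          rw [Finsupp.notMem_support_iff.mp hP]
          exact le_refl _
        · have := hE R
          rwa [Finsupp.add_apply, Finsupp.single_apply, if_neg (Ne.symm hR), zero_add] at this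
      rw [map_add, ih hD, Divisor.degree_single, hdeg, Nat.cast_one, mul_one,
        Finsupp.sum_add_index' (fun _ => rfl) (fun _ _ _ => rfl),
        Finsupp.sum_single_index rfl]
  rw [hsum, Finsupp.sum]
  by_cases hQ : Q ∈ E.support
  · exact Finset.single_le_sum (f := fun R => E R) (fun R _ => hE R) hQ
  · rw [Finsupp.notMem_support_iff.mp hQ]
    exact Finset.sum_nonneg fun R _ => hE R

/-- A nonzero divisor of degree zero (all places of degree one) has a positive coefficient. -/
theorem exists_pos_apply_of_degree_eq_zero (hdeg : ∀ Q : Place k Ft, Q.deg = 1)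
    {X : Divisor k Ft} (hX : X ≠ 0) (hX0 : Divisor.degree X = 0) : ∃ Q, 1 ≤ X Q := by
  classical
  by_contra hcon
  have hle : ∀ Q, X Q ≤ 0 := fun Q => by have := not_exists.mp hcon Q; omega
  have hneg : 0 ≤ -X := by
    intro Q
    rw [Finsupp.neg_apply, Finsupp.zero_apply]
    have := hle Q
    omega
  apply hX
  have h0 : ∀ Q, (-X) Q = 0 := by
    intro Q
    have h1 := apply_le_degree_of_nonneg hdeg hneg Q
    rw [map_neg, hX0, neg_zero] at h1
    exact le_antisymm h1 (hneg Q)
  ext Q
  have := h0 Q
  rw [Finsupp.neg_apply] at this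
  rw [Finsupp.zero_apply]
  omega

section Constancy

variable [HasPrincipalDivisors K F] (hF : RiemannPkg K F) (hdeg : ∀ Q : Place k Ft, Q.deg = 1)
  (G H : Divisor K F →+ Divisor k Ft)
  (hG : ∀ D, 0 ≤ D → 0 ≤ G D) (hH : ∀ D, 0 ≤ D → 0 ≤ H D)
  (c : ℤ) (hGdeg : ∀ D, Divisor.degree (G D) = c * Divisor.degree D)
  (hHdeg : ∀ D, Divisor.degree (H D) = c * Divisor.degree D)

include hF hdeg hG hH hGdeg hHdeg

/-- The key step: `G P - H P` does not depend on the place `P`. -/
theorem sub_single_eq_sub_single
    (hprin : ∀ f : F, f ≠ 0 → G (divOf K f) = H (divOf K f))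
    (P P₂ : Place K F) :
    G (Finsupp.single P 1) - H (Finsupp.single P 1) =
      G (Finsupp.single P₂ 1) - H (Finsupp.single P₂ 1) := by
  classical
  set δ : Divisor K F →+ Divisor k Ft := G - H with hδ
  have hδdeg : ∀ D, Divisor.degree (δ D) = 0 := by
    intro D
    rw [hδ, AddMonoidHom.sub_apply, map_sub, hGdeg, hHdeg, sub_self]
  have hδprin : ∀ f : F, f ≠ 0 → δ (divOf K f) = 0 := by
    intro f hf
    rw [hδ, AddMonoidHom.sub_apply, hprin f hf, sub_self]
  by_contra hne
  set X : Divisor k Ft := δ (Finsupp.single P 1) - δ (Finsupp.single P₂ 1) with hX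
  have hXne : X ≠ 0 := by
    intro h
    apply hne
    have : δ (Finsupp.single P 1) = δ (Finsupp.single P₂ 1) := sub_eq_zero.mp h
    simpa [hδ] using this
  have hXdeg : Divisor.degree X = 0 := by
    rw [hX, map_sub, hδdeg, hδdeg, sub_zero]
  obtain ⟨Q, hQ⟩ := exists_pos_apply_of_degree_eq_zero hdeg hXne hXdeg
  set g : ℕ := genusFF K F with hg
  -- the bound
  set B : ℤ := c * g + g * |δ (Finsupp.single P 1) Q| with hB
  obtain ⟨m, hm⟩ : ∃ m : ℕ, B < (m : ℤ) := by
    refine ⟨(B.toNat + 1), ?_⟩
    have := Int.self_le_toNat B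
    push_cast
    omega
  -- the divisor `m P - m P₂ + g P`
  set Dm : Divisor K F :=
    (m : ℤ) • Finsupp.single P 1 - (m : ℤ) • Finsupp.single P₂ 1 + (g : ℤ) • Finsupp.single P 1
    with hDm
  have hDmdeg : Divisor.degree Dm = g := by
    rw [hDm, map_add, map_sub, map_zsmul, map_zsmul, map_zsmul, degree_single_of_pkg hF,
      degree_single_of_pkg hF]
    simp
  have hLne : riemannRochSpace Dm ≠ ⊥ := by
    intro hbot
    have h1 := hF.riemann_le Dm
    rw [hbot, finrank_bot, hDmdeg] at h1
    simp only [hg] at h1
    omega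
  obtain ⟨f, hfmem, hf0⟩ := (Submodule.ne_bot_iff _).mp hLne
  have hE : 0 ≤ divOf K f + Dm :=
    (mem_riemannRochSpace_iff_divOf.mp hfmem).resolve_left hf0
  set E : Divisor K F := divOf K f + Dm with hEdef
  have hEdeg : Divisor.degree E = g := by
    rw [hEdef, map_add, degree_divOf, zero_add, hDmdeg]
  -- apply `δ`
  have hδE : δ E = (m : ℤ) • X + (g : ℤ) • δ (Finsupp.single P 1) := by
    rw [hEdef, map_add, hδprin f hf0, zero_add, hDm, map_add, map_sub, map_zsmul, map_zsmul,
      map_zsmul, hX, smul_sub]
  have hcoef : (m : ℤ) * X Q = G E Q - H E Q - g * δ (Finsupp.single P 1) Q := by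
    have := congrArg (fun D : Divisor k Ft => D Q) hδE
    simp only [hδ, AddMonoidHom.sub_apply, Finsupp.sub_apply, Finsupp.add_apply,
      Finsupp.smul_apply, smul_eq_mul] at this ⊢
    linarith
  have hGE : G E Q ≤ c * g := by
    have := apply_le_degree_of_nonneg hdeg (hG E hE) Q
    rwa [hGdeg, hEdeg] at this
  have hHE : 0 ≤ H E Q := hH E hE Q
  have hm0 : (0 : ℤ) ≤ m := Int.natCast_nonneg m
  have h1 : (m : ℤ) ≤ (m : ℤ) * X Q := by nlinarith
  have h2 : -(g * δ (Finsupp.single P 1) Q) ≤ g * |δ (Finsupp.single P 1) Q| := by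
    have h3 := neg_abs_le (δ (Finsupp.single P 1) Q)
    have hg0 : (0 : ℤ) ≤ g := Int.natCast_nonneg g
    nlinarith
  have : (m : ℤ) ≤ B := by
    rw [hB]
    linarith
  omega

/-- **Constancy lemma.** Two positive additive maps of divisors which multiply degrees by the
same constant and agree on principal divisors agree on all divisors of degree zero. -/
theorem eq_of_eq_on_principal
    (hprin : ∀ f : F, f ≠ 0 → G (divOf K f) = H (divOf K f))
    (D : Divisor K F) (hD : Divisor.degree D = 0) : G D = H D := by
  classical
  obtain ⟨P₀⟩ : Nonempty (Place K F) := by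
    have := hF.infinite_places
    exact inferInstance
  set d0 : Divisor k Ft := G (Finsupp.single P₀ 1) - H (Finsupp.single P₀ 1) with hd0
  have hconst : ∀ P : Place K F, G (Finsupp.single P 1) - H (Finsupp.single P 1) = d0 :=
    fun P => sub_single_eq_sub_single hF hdeg G H hG hH c hGdeg hHdeg hprin P P₀
  have key : ∀ D : Divisor K F, G D - H D = Divisor.degree D • d0 := by
    intro D
    induction D using Finsupp.induction with
    | zero => simp
    | single_add P n D _ _ ih =>
      have hs : (Finsupp.single P n : Divisor K F) = n • Finsupp.single P 1 := by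
        rw [Finsupp.smul_single, smul_eq_mul, mul_one]
      rw [map_add, map_add, map_add, add_sub_add_comm, ih, hs, map_zsmul, map_zsmul, map_zsmul,
        ← smul_sub, hconst P, degree_single_of_pkg hF, add_smul, smul_eq_mul, mul_one]
  have := key D
  rw [hD, zero_smul] at this
  exact sub_eq_zero.mp this

end Constancy

end Fermat.Agent.Hecke
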