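import Mathlib
import Fermat.Agent.Hecke.ESConstancy

/-!
# S37 / ES-N, node ES-1 (variant): the constancy lemma with two degree multipliers

Same statement as `eq_of_eq_on_principal`, but `G` and `H` may multiply degrees by different
constants `c`, `c'` (the proof never compares them): two positive additive maps
`G H : Divisor K F →+ Divisor k Ft` with `deg (G D) = c deg D`, `deg (H D) = c' deg D` which agree
on principal divisors agree on all divisors of degree `0`.  In the application to the
Eichler–Shimura congruence this makes the computation of the degree of `F_{Nℓ}` over `β(F_N)`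
unnecessary.
-/

set_option autoImplicit false

namespace Fermat.Agent.Hecke

open AlgebraicCurve Fermat.Agent.Red

variable {K F k Ft : Type*} [Field K] [Field F] [Algebra K F] [Field k] [Field Ft] [Algebra k Ft]

section Constancy2

variable [HasPrincipalDivisors K F] (hF : RiemannPkg K F) (hdeg : ∀ Q : Place k Ft, Q.deg = 1)
  (G H : Divisor K F →+ Divisor k Ft)
  (hG : ∀ D, 0 ≤ D → 0 ≤ G D) (hH : ∀ D, 0 ≤ D → 0 ≤ H D)
  (c c' : ℤ) (hGdeg : ∀ D, Divisor.degree (G D) = c * Divisor.degree D)
  (hHdeg : ∀ D, Divisor.degree (H D) = c' * Divisor.degree D)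

include hF hdeg hG hH hGdeg hHdeg

/-- The key step: `G P - H P` does not depend on the place `P`. -/
theorem sub_single_eq_sub_single'
    (hprin : ∀ f : F, f ≠ 0 → G (divOf K f) = H (divOf K f))
    (P P₂ : Place K F) :
    G (Finsupp.single P 1) - H (Finsupp.single P 1) =
      G (Finsupp.single P₂ 1) - H (Finsupp.single P₂ 1) := by
  classical
  set δ : Divisor K F →+ Divisor k Ft := G - H with hδ
  have hδdeg : ∀ D, Divisor.degree (δ D) = (c - c') * Divisor.degree D := by
    intro D
    rw [hδ, AddMonoidHom.sub_apply, map_sub, hGdeg, hHdeg, sub_mul]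
  have hδprin : ∀ f : F, f ≠ 0 → δ (divOf K f) = 0 := by
    intro f hf
    rw [hδ, AddMonoidHom.sub_apply, hprin f hf, sub_self]
  by_contra hne
  set X : Divisor k Ft := δ (Finsupp.single P 1) - δ (Finsupp.single P₂ 1) with hX
  have hXne : X ≠ 0 := by
    intro h
    apply hne
    have : δ (Finsupp.single P 1) = δ (Finsupp.single P₂ 1) := sub_eq_zero.mp h
    simpa [hδ] using this
  have hXdeg : Divisor.degree X = 0 := by
    rw [hX, map_sub, hδdeg, hδdeg, degree_single_of_pkg hF, degree_single_of_pkg hF, sub_self]
  obtain ⟨Q, hQ⟩ := exists_pos_apply_of_degree_eq_zero hdeg hXne hXdeg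
  set g : ℕ := genusFF K F with hg
  -- the bound
  set B : ℤ := c * g + g * |δ (Finsupp.single P 1) Q| with hB
  obtain ⟨m, hm⟩ : ∃ m : ℕ, B < (m : ℤ) := by
    refine ⟨(B.toNat + 1), ?_⟩
    have := Int.self_le_toNat B
    push_cast
    omega
  -- the divisor `m P - m P₂ + g P`
  set Dm : Divisor K F :=
    (m : ℤ) • Finsupp.single P 1 - (m : ℤ) • Finsupp.single P₂ 1 + (g : ℤ) • Finsupp.single P 1
    with hDm
  have hDmdeg : Divisor.degree Dm = g := by
    rw [hDm, map_add, map_sub, map_zsmul, map_zsmul, map_zsmul, degree_single_of_pkg hF,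
      degree_single_of_pkg hF]
    simp
  have hLne : riemannRochSpace Dm ≠ ⊥ := by
    intro hbot
    have h1 := hF.riemann_le Dm
    rw [hbot, finrank_bot, hDmdeg] at h1
    simp only [hg] at h1
    omega
  obtain ⟨f, hfmem, hf0⟩ := (Submodule.ne_bot_iff _).mp hLne
  have hE : 0 ≤ divOf K f + Dm :=
    (mem_riemannRochSpace_iff_divOf.mp hfmem).resolve_left hf0
  set E : Divisor K F := divOf K f + Dm with hEdef
  have hEdeg : Divisor.degree E = g := by
    rw [hEdef, map_add, degree_divOf, zero_add, hDmdeg]
  -- apply `δ`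
  have hδE : δ E = (m : ℤ) • X + (g : ℤ) • δ (Finsupp.single P 1) := by
    rw [hEdef, map_add, hδprin f hf0, zero_add, hDm, map_add, map_sub, map_zsmul, map_zsmul,
      map_zsmul, hX, smul_sub]
  have hcoef : (m : ℤ) * X Q = G E Q - H E Q - g * δ (Finsupp.single P 1) Q := by
    have := congrArg (fun D : Divisor k Ft => D Q) hδE
    simp only [hδ, AddMonoidHom.sub_apply, Finsupp.sub_apply, Finsupp.add_apply,
      Finsupp.smul_apply, smul_eq_mul] at this ⊢
    linarith
  have hGE : G E Q ≤ c * g := by
    have := apply_le_degree_of_nonneg hdeg (hG E hE) Q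
    rwa [hGdeg, hEdeg] at this
  have hHE : 0 ≤ H E Q := hH E hE Q
  have hm0 : (0 : ℤ) ≤ m := Int.natCast_nonneg m
  have h1 : (m : ℤ) ≤ (m : ℤ) * X Q := by nlinarith
  have h2 : -(g * δ (Finsupp.single P 1) Q) ≤ g * |δ (Finsupp.single P 1) Q| := by
    have h3 := neg_abs_le (δ (Finsupp.single P 1) Q)
    have hg0 : (0 : ℤ) ≤ g := Int.natCast_nonneg g
    nlinarith
  have : (m : ℤ) ≤ B := by
    rw [hB]
    linarith
  omega

/-- **Constancy lemma.** Two positive additive maps of divisors which multiply degrees by the
same constant and agree on principal divisors agree on all divisors of degree zero. -/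
theorem eq_of_eq_on_principal'
    (hprin : ∀ f : F, f ≠ 0 → G (divOf K f) = H (divOf K f))
    (D : Divisor K F) (hD : Divisor.degree D = 0) : G D = H D := by
  classical
  obtain ⟨P₀⟩ : Nonempty (Place K F) := by
    have := hF.infinite_places
    exact inferInstance
  set d0 : Divisor k Ft := G (Finsupp.single P₀ 1) - H (Finsupp.single P₀ 1) with hd0
  have hconst : ∀ P : Place K F, G (Finsupp.single P 1) - H (Finsupp.single P 1) = d0 :=
    fun P => sub_single_eq_sub_single' hF hdeg G H hG hH c c' hGdeg hHdeg hprin P P₀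
  have key : ∀ D : Divisor K F, G D - H D = Divisor.degree D • d0 := by
    intro D
    induction D using Finsupp.induction with
    | zero => simp
    | single_add P n D _ _ ih =>
      have hs : (Finsupp.single P n : Divisor K F) = n • Finsupp.single P 1 := by
        rw [Finsupp.smul_single, smul_eq_mul, mul_one]
      rw [map_add, map_add, map_add, add_sub_add_comm, ih, hs, map_zsmul, map_zsmul, map_zsmul,
        ← smul_sub, hconst P, degree_single_of_pkg hF, add_smul, smul_eq_mul, mul_one]
  have := key D
  rw [hD, zero_smul] at this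
  exact sub_eq_zero.mp this

end Constancy2

end Fermat.Agent.Hecke
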