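import Mathlib
import Fermat.Agent.Hecke.ESConstancy
import Fermat.Agent.Red.NormalForm

/-!
# S37 / ES-N, node ES-4: the Eichler–Shimura congruence on divisors and on `Pic⁰`, abstract form

`S : RedSetup A π` a valued function field `F/K` with residue function field `Ft/k` and conserving
place reduction `S.r`.  Let `T : Divisor K F →+ Divisor K F` and
`Φ Ψ : Divisor k Ft →+ Divisor k Ft` be positive additive maps with degree multipliers
`c = a + b`, and assume the congruence on principal divisors of units of `S.O`: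
`r_* (T (div y)) = Φ (div (res y)) + Ψ (div (res y))`.

* `mapDomain_r_eq_of_units` : then `r_* (T D) = Φ (r_* D) + Ψ (r_* D)` for all `D` of degree `0`;
* `redDegZero`, `redPic0` : the reduction map on degree zero divisors and on `Pic⁰`;
* `redPic0_comm` : the congruence on `Pic⁰` for any endomorphisms induced by `T`, `Φ`, `Ψ`.
-/

set_option autoImplicit false

namespace Fermat.Agent.Hecke

open AlgebraicCurve Fermat.Agent.Red

variable {K F k Ft : Type*} [Field K] [Field F] [Algebra K F] [Field k] [Field Ft] [Algebra k Ft]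

/-- Push-forward of divisors along a map of places, as an additive map. -/
noncomputable def pushPlaces (r : Place K F → Place k Ft) : Divisor K F →+ Divisor k Ft :=
  Finsupp.mapDomain.addMonoidHom r

@[simp]
theorem pushPlaces_apply (r : Place K F → Place k Ft) (D : Divisor K F) :
    pushPlaces r D = Finsupp.mapDomain r D := rfl

theorem pushPlaces_nonneg (r : Place K F → Place k Ft) {D : Divisor K F} (hD : 0 ≤ D) :
    0 ≤ pushPlaces r D := by
  classical
  intro Q
  rw [pushPlaces_apply, Finsupp.zero_apply, Finsupp.mapDomain, Finsupp.sum, Finsupp.finsetSum_apply]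
  refine Finset.sum_nonneg fun P _ => ?_
  rw [Finsupp.single_apply]
  split_ifs
  · exact hD P
  · exact le_refl _

variable {A : ValuationSubring K} {π : A →+* k} (S : RedSetup (F := F) (Ft := Ft) A π)

section Conservation

variable [HasPrincipalDivisors K F] [HasPrincipalDivisors k Ft]

/-- Conservation in `divOf` form. -/
theorem pushPlaces_divOf_unit (y : S.O) (hy : S.res y ≠ 0) :
    pushPlaces S.r (divOf K (y : F)) = divOf k (S.res y) := by
  ext Q
  rw [pushPlaces_apply, S.conservation y hy (divOf K (y : F)) (fun P => divOf_apply _ P) Q,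
    divOf_apply]

/-- The reduction of a principal divisor is principal. -/
theorem pushPlaces_mem_principal {D : Divisor K F}
    (hD : D ∈ Divisor.principal (K := K) (F := F)) :
    pushPlaces S.r D ∈ Divisor.principal (K := k) (F := Ft) := by
  obtain ⟨f, hf, rfl⟩ := mem_principal_iff_exists_divOf.mp hD
  obtain ⟨c, hc, h, hres⟩ := NormalForm.exists_smul_mem S hf
  rw [← divOf_smul c hc f, pushPlaces_divOf_unit S ⟨c • f, h⟩ hres]
  exact divOf_mem_principal hres

end Conservation

section Congruence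

variable [HasPrincipalDivisors K F] [HasPrincipalDivisors k Ft]
  (hF : RiemannPkg K F) (hFt : RiemannPkg k Ft)
  (T : Divisor K F →+ Divisor K F) (hT : ∀ D, 0 ≤ D → 0 ≤ T D)
  (Φ Ψ : Divisor k Ft →+ Divisor k Ft) (hΦ : ∀ E, 0 ≤ E → 0 ≤ Φ E) (hΨ : ∀ E, 0 ≤ E → 0 ≤ Ψ E)
  (a b c : ℤ) (hTdeg : ∀ D, Divisor.degree (T D) = c * Divisor.degree D)
  (hΦdeg : ∀ E, Divisor.degree (Φ E) = a * Divisor.degree E)
  (hΨdeg : ∀ E, Divisor.degree (Ψ E) = b * Divisor.degree E) (hab : a + b = c)

include hF hFt hT hΦ hΨ hTdeg hΦdeg hΨdeg hab in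
/-- **Eichler–Shimura congruence on divisors of degree zero**, from the congruence on the
principal divisors of the units of `S.O`. -/
theorem mapDomain_r_eq_of_units
    (hprin : ∀ y : S.O, S.res y ≠ 0 →
      Finsupp.mapDomain S.r (T (divOf K (y : F))) =
        Φ (divOf k (S.res y)) + Ψ (divOf k (S.res y)))
    (D : Divisor K F) (hD : Divisor.degree D = 0) :
    Finsupp.mapDomain S.r (T D) =
      Φ (Finsupp.mapDomain S.r D) + Ψ (Finsupp.mapDomain S.r D) := by
  set G : Divisor K F →+ Divisor k Ft := (pushPlaces S.r).comp T with hGdef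
  set H : Divisor K F →+ Divisor k Ft := (Φ + Ψ).comp (pushPlaces S.r) with hHdef
  have key : G D = H D := by
    refine eq_of_eq_on_principal hF hFt.deg_one G H ?_ ?_ c ?_ ?_ ?_ D hD
    · intro D hD
      exact pushPlaces_nonneg S.r (hT D hD)
    · intro D hD
      have h1 := pushPlaces_nonneg S.r hD
      have := add_nonneg (hΦ _ h1) (hΨ _ h1)
      simpa [hHdef] using this
    · intro D
      rw [hGdef, AddMonoidHom.comp_apply, pushPlaces_apply, degree_mapDomain_eq S.r S.deg_r,
        hTdeg]
    · intro D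
      rw [hHdef, AddMonoidHom.comp_apply, AddMonoidHom.add_apply, map_add, hΦdeg, hΨdeg,
        pushPlaces_apply, degree_mapDomain_eq S.r S.deg_r, ← hab]
      ring
    · intro f hf
      obtain ⟨u, hu, h, hres⟩ := NormalForm.exists_smul_mem S hf
      rw [← divOf_smul u hu f]
      rw [hGdef, hHdef, AddMonoidHom.comp_apply, AddMonoidHom.comp_apply, pushPlaces_apply,
        hprin ⟨u • f, h⟩ hres, pushPlaces_divOf_unit S ⟨u • f, h⟩ hres, AddMonoidHom.add_apply]
  simpa [hGdef, hHdef] using key

end Congruence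

section Pic0

/-- The reduction map on divisors of degree zero. -/
noncomputable def redDegZero :
    Divisor.degZero (K := K) (F := F) →+ Divisor.degZero (K := k) (F := Ft) :=
  ((pushPlaces S.r).domRestrict (Divisor.degZero (K := K) (F := F))).codRestrict _ (fun D => by
    rw [Divisor.mem_degZero]
    change Divisor.degree (Finsupp.mapDomain S.r (D : Divisor K F)) = 0
    rw [degree_mapDomain_eq S.r S.deg_r]
    exact Divisor.mem_degZero.mp D.2)

@[simp]
theorem coe_redDegZero (D : Divisor.degZero (K := K) (F := F)) :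
    (redDegZero S D : Divisor k Ft) = Finsupp.mapDomain S.r (D : Divisor K F) := rfl

variable [HasPrincipalDivisors K F] [HasPrincipalDivisors k Ft]

/-- The reduction map `Pic⁰(F) → Pic⁰(Ft)` of a `RedSetup`. -/
noncomputable def redPic0 : Pic0 K F →+ Pic0 k Ft :=
  QuotientAddGroup.map _ _ (redDegZero S) (by
    rintro ⟨D, hD0⟩ hD
    simp only [AddSubgroup.mem_addSubgroupOf] at hD ⊢
    exact pushPlaces_mem_principal S hD)

theorem redPic0_mk (D : Divisor.degZero (K := K) (F := F)) :
    redPic0 S (Pic0.mk D) = Pic0.mk (redDegZero S D) := rfl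

/-- `redPic0 x = 0` means that the reduced divisor is principal. -/
theorem redPic0_mk_eq_zero_iff (D : Divisor.degZero (K := K) (F := F)) :
    redPic0 S (Pic0.mk D) = 0 ↔
      Finsupp.mapDomain S.r (D : Divisor K F) ∈ Divisor.principal (K := k) (F := Ft) := by
  rw [redPic0_mk, Pic0.mk, QuotientAddGroup.eq_zero_iff, AddSubgroup.mem_addSubgroupOf,
    coe_redDegZero]

/-- **Eichler–Shimura congruence on `Pic⁰`**: if `Tb`, `Φb`, `Ψb` are induced by `T`, `Φ`, `Ψ` and
the congruence holds on divisors of degree zero, then `red ∘ Tb = (Φb + Ψb) ∘ red`. -/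
theorem redPic0_comm
    (T : Divisor K F →+ Divisor K F) (Φ Ψ : Divisor k Ft →+ Divisor k Ft)
    (hcong : ∀ D : Divisor K F, Divisor.degree D = 0 →
      Finsupp.mapDomain S.r (T D) = Φ (Finsupp.mapDomain S.r D) + Ψ (Finsupp.mapDomain S.r D))
    (Tb : Pic0 K F →+ Pic0 K F) (Φb Ψb : Pic0 k Ft →+ Pic0 k Ft)
    (hTb : ∀ D : Divisor.degZero (K := K) (F := F),
      ∃ h : T D ∈ Divisor.degZero (K := K) (F := F), Tb (Pic0.mk D) = Pic0.mk ⟨T D, h⟩)
    (hΦb : ∀ E : Divisor.degZero (K := k) (F := Ft),
      ∃ h : Φ E ∈ Divisor.degZero (K := k) (F := Ft), Φb (Pic0.mk E) = Pic0.mk ⟨Φ E, h⟩)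
    (hΨb : ∀ E : Divisor.degZero (K := k) (F := Ft),
      ∃ h : Ψ E ∈ Divisor.degZero (K := k) (F := Ft), Ψb (Pic0.mk E) = Pic0.mk ⟨Ψ E, h⟩)
    (x : Pic0 K F) : redPic0 S (Tb x) = Φb (redPic0 S x) + Ψb (redPic0 S x) := by
  obtain ⟨D, rfl⟩ := Pic0.mk_surjective x
  obtain ⟨h1, e1⟩ := hTb D
  obtain ⟨h2, e2⟩ := hΦb (redDegZero S D)
  obtain ⟨h3, e3⟩ := hΨb (redDegZero S D)
  rw [e1, redPic0_mk, redPic0_mk, e2, e3, ← Pic0.mk_add]
  congr 1
  apply Subtype.ext
  change Finsupp.mapDomain S.r (T (D : Divisor K F)) =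
    Φ (Finsupp.mapDomain S.r (D : Divisor K F)) + Ψ (Finsupp.mapDomain S.r (D : Divisor K F))
  exact hcong D (Divisor.mem_degZero.mp D.2)

end Pic0

end Fermat.Agent.Hecke
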