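import Mathlib
import Fermat.Agent.Hecke.ESDivisor
import Fermat.Agent.Hecke.ESConstancy2

/-!
# S37 / ES-N, node ES-4 (variant): the congruence on divisors of degree zero without any
relation between the degree multipliers

Same as `mapDomain_r_eq_of_units`, but the hypothesis `a + b = c` is dropped (it is never needed:
`eq_of_eq_on_principal'`).  In particular the degree of the Hecke correspondence need not be
computed.
-/

set_option autoImplicit false

namespace Fermat.Agent.Hecke

open AlgebraicCurve Fermat.Agent.Red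

variable {K F k Ft : Type*} [Field K] [Field F] [Algebra K F] [Field k] [Field Ft] [Algebra k Ft]
  {A : ValuationSubring K} {π : A →+* k} (S : RedSetup (F := F) (Ft := Ft) A π)
  [HasPrincipalDivisors K F] [HasPrincipalDivisors k Ft]
  (hF : RiemannPkg K F) (hFt : RiemannPkg k Ft)
  (T : Divisor K F →+ Divisor K F) (hT : ∀ D, 0 ≤ D → 0 ≤ T D)
  (Φ Ψ : Divisor k Ft →+ Divisor k Ft) (hΦ : ∀ E, 0 ≤ E → 0 ≤ Φ E) (hΨ : ∀ E, 0 ≤ E → 0 ≤ Ψ E)
  (a b c : ℤ) (hTdeg : ∀ D, Divisor.degree (T D) = c * Divisor.degree D)
  (hΦdeg : ∀ E, Divisor.degree (Φ E) = a * Divisor.degree E)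
  (hΨdeg : ∀ E, Divisor.degree (Ψ E) = b * Divisor.degree E)

include hF hFt hT hΦ hΨ hTdeg hΦdeg hΨdeg in
/-- **Eichler–Shimura congruence on divisors of degree zero**, from the congruence on the
principal divisors of the units of `S.O`; no relation between the degree multipliers needed. -/
theorem mapDomain_r_eq_of_units'
    (hprin : ∀ y : S.O, S.res y ≠ 0 →
      Finsupp.mapDomain S.r (T (divOf K (y : F))) =
        Φ (divOf k (S.res y)) + Ψ (divOf k (S.res y)))
    (D : Divisor K F) (hD : Divisor.degree D = 0) :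
    Finsupp.mapDomain S.r (T D) =
      Φ (Finsupp.mapDomain S.r D) + Ψ (Finsupp.mapDomain S.r D) := by
  set G : Divisor K F →+ Divisor k Ft := (pushPlaces S.r).comp T with hGdef
  set H : Divisor K F →+ Divisor k Ft := (Φ + Ψ).comp (pushPlaces S.r) with hHdef
  have key : G D = H D := by
    refine eq_of_eq_on_principal' hF hFt.deg_one G H ?_ ?_ c (a + b) ?_ ?_ ?_ D hD
    · intro D hD
      exact pushPlaces_nonneg S.r (hT D hD)
    · intro D hD
      have h1 := pushPlaces_nonneg S.r hD
      have := add_nonneg (hΦ _ h1) (hΨ _ h1)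
      simpa [hHdef] using this
    · intro D
      rw [hGdef, AddMonoidHom.comp_apply, pushPlaces_apply, degree_mapDomain_eq S.r S.deg_r,
        hTdeg]
    · intro D
      rw [hHdef, AddMonoidHom.comp_apply, AddMonoidHom.add_apply, map_add, hΦdeg, hΨdeg,
        pushPlaces_apply, degree_mapDomain_eq S.r S.deg_r]
      ring
    · intro f hf
      obtain ⟨u, hu, h, hres⟩ := NormalForm.exists_smul_mem S hf
      rw [← divOf_smul u hu f]
      rw [hGdef, hHdef, AddMonoidHom.comp_apply, AddMonoidHom.comp_apply, pushPlaces_apply,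
        hprin ⟨u • f, h⟩ hres, pushPlaces_divOf_unit S ⟨u • f, h⟩ hres, AddMonoidHom.add_apply]
  simpa [hGdef, hHdef] using key

end Fermat.Agent.Hecke
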