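import Mathlib
import Fermat.Agent.Val.ReductionInputs
import Fermat.Agent.Val.Deliverable
import Fermat.Agent.Val.RiemannPkgBar
import Fermat.Agent.Val.RiemannPkgModL
import Fermat.Agent.Red.S18FromGen

/-!
# S37 node ES-R: reduction inputs of `X₀(N)` at `ℓ ∤ N` from the genus equality

`A` a valuation subring of `ℚ̄` over a prime `ℓ ∤ N`, `k` its residue field.  Everything is
derived from the single hypothesis `hg : genusFF k F̃_N = genusFF ℚ̄ F̄_N` (the output of L-GEN).

* `constRedBar_bridge` : a series over `A` lying in `F̄_N` with reduction in `F̃_N` belongs to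
  the Gauss ring of `constRedBar` and its residue is the coefficientwise reduction.
* `reductionInputsModL_of_genus` : the Prelude's `ReductionInputsModL A N`.
* `conserves_of_isPlaceReductionModL` : any Prelude place reduction conserves principal
  divisors in the `ConstRed` sense.
* `reductionModL_eq_zero_imp` / `reductionModL_injective_ppow` : injectivity of the Prelude's
  `reductionModL A N` on torsion prime to `ℓ` (field (d) of `Hecke/SpecFormal.lean`).
-/

set_option autoImplicit false
set_option linter.style.haveILetI false

noncomputable section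
namespace Fermat.Agent.Hecke

open AlgebraicCurve ModularCurve IsLocalRing Fermat.Agent.Val Fermat.Agent.Red

set_option synthInstance.maxHeartbeats 400000
set_option maxHeartbeats 1000000

section

variable (N : ℕ) [NeZero N] {ℓ : ℕ} [hℓ : Fact ℓ.Prime] (hℓN : ¬ ℓ ∣ N)
variable (A : ValuationSubring (AlgebraicClosure ℚ)) (hA : A.LiesOverPrime ℓ)

/-- **The bridge**: a series with coefficients in `A` lying in `F̄_N`, whose coefficientwise
reduction lies in `F̃_N`, belongs to the valuation ring of `constRedBar`, and its residue is the
coefficientwise reduction. -/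
theorem constRedBar_bridge (y : LaurentSeries A)
    (hy : coeffMap A.subtype y ∈ modularFunctionFieldBar N)
    (hyk : coeffMap (residue A) y ∈ modularFunctionFieldFullC (ResidueField A) N) :
    ∃ h : (⟨coeffMap A.subtype y, hy⟩ : modularFunctionFieldBar N) ∈
        (constRedBar N hℓN A hA).O,
      (constRedBar N hℓN A hA).res ⟨_, h⟩ = ⟨coeffMap (residue A) y, hyk⟩ := by
  obtain ⟨h, hres⟩ := (orthoDataQbar A N hA hℓN).resSeries_aIota y hy
  exact ⟨h, Subtype.ext hres⟩

include hℓN hA in
/-- **`ReductionInputsModL A N` from the genus equality** (node (M2) of S37). -/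
theorem reductionInputsModL_of_genus
    (hg : genusFF (ResidueField A) (modularFunctionFieldFullC (ResidueField A) N) =
      genusFF (AlgebraicClosure ℚ) (modularFunctionFieldBar N)) :
    ReductionInputsModL A N := by
  haveI : IsAlgClosed (ResidueField A) := residueField_isAlgClosed A
  haveI : Infinite (ResidueField A) := IsAlgClosed.instInfinite
  exact reductionInputsAlong_of_constRed (constRedBar N hℓN A hA) (residue_surjective' A)
    (riemannPkg_bar N) (riemannPkg_modL_residueField N hℓN A hA) hg
    (constRedBar_bridge N hℓN A hA) (principalGeneratedByIntegral_bar N hℓN A hA)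

variable {N A} in
/-- Every place reduction in the sense of the Prelude conserves the principal divisors of the
units of the Gauss ring. -/
theorem conserves_of_isPlaceReductionModL
    {r : Place (AlgebraicClosure ℚ) (modularFunctionFieldBar N) →
      Place (ResidueField A) (modularFunctionFieldFullC (ResidueField A) N)}
    (hr : IsPlaceReductionModL A N r) : (constRedBar N hℓN A hA).Conserves r :=
  fun y hy D hD Q => (redSetupBar hℓN hA hr).conservation y hy D hD Q

include hℓN hA in
/-- **Field (d)**: the Prelude's reduction `reductionModL A N` is injective on torsion of order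
prime to `ℓ`, given the genus equality. -/
theorem reductionModL_eq_zero_imp
    (hg : genusFF (ResidueField A) (modularFunctionFieldFullC (ResidueField A) N) =
      genusFF (AlgebraicClosure ℚ) (modularFunctionFieldBar N))
    (m : ℕ) (hm : ¬ ℓ ∣ m) (x : JZero N) (hmx : m • x = 0)
    (hx : reductionModL A N x = 0) : x = 0 :=
  s18_of_gen N hℓN A hA (fun _ => hg) (reductionInputsModL_of_genus N hℓN A hA hg) m hm x hmx hx

include hℓN hA in
/-- Field (d) in the exact shape of `Hecke/SpecFormal.lean`: injectivity on `p`-power torsion for
a prime `p ≠ ℓ`. -/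
theorem reductionModL_injective_ppow
    (hg : genusFF (ResidueField A) (modularFunctionFieldFullC (ResidueField A) N) =
      genusFF (AlgebraicClosure ℚ) (modularFunctionFieldBar N))
    {p : ℕ} (hp : ¬ ℓ ∣ p) (x : JZero N) (hx : ∃ n : ℕ, p ^ n • x = 0)
    (h0 : reductionModL A N x = 0) : x = 0 := by
  obtain ⟨n, hn⟩ := hx
  exact reductionModL_eq_zero_imp N hℓN A hA hg (p ^ n)
    (fun h => hp (hℓ.out.dvd_of_dvd_pow h)) x hn h0

end

end Fermat.Agent.Hecke
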