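import Fermat.Agent.Cheb.FrobDict
import Fermat.Prelude.Def_HeckeGalois_EichlerShimura
import Fermat.Prelude.Def_ModularCurve_HeckeModule

/-!
# S37, node F0: the formal part of `SpecializationExists`

Let `J` be a `HeckeAlg`-module with a commuting action of `Gal(L/K)`, `A` a valuation subring of `L`
and `s0` a Frobenius element at `A` for the prime `ℓ`.  Put

* `specSubmodule J A hℓ s0 : Submodule HeckeAlg J`, the `HeckeAlg`-span of all `i • x - x`
  (`i` in the inertia group of `A`) and all `s0 • s0 • x - T_ℓ • (s0 • x) + ℓ • x`;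
* `SpecQuot J A hℓ s0 := J ⧸ specSubmodule ..`, `specMap := mk`, `specFrob :=` the map induced by
  `s0`.

Then `hecke_comm`, `inertia_comm`, `frobenius_comm` (for EVERY Frobenius lift: two of them differ by
an inertia element, `Cheb.mul_inv_mem_inertiaSubgroupIn`) and `SpecialFibreRelation` hold by
construction (`specialFibreRelation_specFrob`, `isSpecialization_specMap`).  The only remaining
content is `injective_torsion`, i.e. `J[p^∞] ∩ specSubmodule = 0`; this follows from any additive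
map `red : J →+ Jt` which is inertia-invariant, kills `P(s0) J` and is injective on `p`-power torsion
(`isSpecialization_specMap_of_red`), in particular from a reduction datum `(red, Φ, Ψ)` with
`red (s0 • x) = Φ (red x)`, `red (T_ℓ • x) = Φ (red x) + Ψ (red x)`, `Ψ ∘ Φ = ℓ`
(Eichler–Shimura congruence; `isSpecialization_specMap_of_reductionData`).

`specializationExists_of_reductionData` / `specializationExists_JZero_of_reductionData` package this
in the exact shape of `ModularCurve.SpecializationExists` resp. of statement S37.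
-/

set_option autoImplicit false
set_option linter.unusedSectionVars false
set_option linter.style.haveILetI false

noncomputable section

namespace Fermat.Agent.Hecke

open ModularCurve

section Formal

variable {K L : Type*} [Field K] [Field L] [Algebra K L]
variable (J : Type) [AddCommGroup J] [Module HeckeAlg J]
  [DistribMulAction (L ≃ₐ[K] L) J] [SMulCommClass (L ≃ₐ[K] L) HeckeAlg J]
variable (A : ValuationSubring L) {ℓ : ℕ} (hℓ : ℓ.Prime) (s0 : L ≃ₐ[K] L)

/-- The quadratic Frobenius expression `P(σ) x = σ² x - T_ℓ σ x + ℓ x`. -/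
def frobQuad (σ : L ≃ₐ[K] L) (x : J) : J :=
  σ • σ • x - heckeGen ⟨ℓ, hℓ⟩ • (σ • x) + ℓ • x

/-- The generators of the kernel of the formal specialization: `i x - x` (`i` in the inertia group
of `A`) and `P(s0) x`. -/
def specGens : Set J :=
  {y | ∃ i ∈ A.inertiaSubgroupIn K, ∃ x : J, y = i • x - x} ∪
    {y | ∃ x : J, y = frobQuad J hℓ s0 x}

/-- The kernel of the formal specialization. -/
def specSubmodule : Submodule HeckeAlg J :=
  Submodule.span HeckeAlg (specGens J A hℓ s0)

/-- The formal special fibre `J / (I_A-augmentation + P(s0) J)`. -/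
abbrev SpecQuot : Type := J ⧸ specSubmodule J A hℓ s0

/-- The formal specialization map. -/
def specMap : J →+ SpecQuot J A hℓ s0 :=
  (specSubmodule J A hℓ s0).mkQ.toAddMonoidHom

variable {J A hℓ s0}

theorem specMap_apply (x : J) :
    specMap J A hℓ s0 x = Submodule.Quotient.mk x := rfl

theorem specMap_eq_zero_iff {x : J} :
    specMap J A hℓ s0 x = 0 ↔ x ∈ specSubmodule J A hℓ s0 :=
  Submodule.Quotient.mk_eq_zero _

theorem specMap_eq_iff {x y : J} :
    specMap J A hℓ s0 x = specMap J A hℓ s0 y ↔ x - y ∈ specSubmodule J A hℓ s0 :=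
  Submodule.Quotient.eq _

theorem inertia_sub_mem_specSubmodule {i : L ≃ₐ[K] L} (hi : i ∈ A.inertiaSubgroupIn K) (x : J) :
    i • x - x ∈ specSubmodule J A hℓ s0 :=
  Submodule.subset_span (Or.inl ⟨i, hi, x, rfl⟩)

theorem frobQuad_mem_specSubmodule (x : J) :
    frobQuad J hℓ s0 x ∈ specSubmodule J A hℓ s0 :=
  Submodule.subset_span (Or.inr ⟨x, rfl⟩)

theorem smul_frobQuad (σ τ : L ≃ₐ[K] L) (h : σ * τ = τ * σ) (x : J) :
    σ • frobQuad J hℓ τ x = frobQuad J hℓ τ (σ • x) := by
  have h1 : σ • τ • x = τ • σ • x := by rw [smul_smul, smul_smul, h]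
  unfold frobQuad
  rw [smul_add, smul_sub, smul_comm σ (heckeGen ⟨ℓ, hℓ⟩), smul_comm σ ℓ, h1]
  congr 2
  rw [smul_smul, smul_smul, smul_smul, smul_smul, h, mul_assoc, h, mul_assoc]

theorem hecke_smul_frobQuad (T : HeckeAlg) (σ : L ≃ₐ[K] L) (x : J) :
    T • frobQuad J hℓ σ x = frobQuad J hℓ σ (T • x) := by
  unfold frobQuad
  rw [smul_add, smul_sub, smul_comm T ℓ, smul_comm σ T x, smul_comm σ T (σ • x),
    smul_comm T (heckeGen ⟨ℓ, hℓ⟩)]

/-- Conjugation by an element of the decomposition group preserves the inertia group. -/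
theorem conj_mem_inertiaSubgroupIn {σ i : L ≃ₐ[K] L} (hσ : σ ∈ A.decompositionSubgroup K)
    (hi : i ∈ A.inertiaSubgroupIn K) : σ * i * σ⁻¹ ∈ A.inertiaSubgroupIn K := by
  obtain ⟨i', hi', rfl⟩ := hi
  haveI : (A.inertiaSubgroup K).Normal := by
    unfold ValuationSubring.inertiaSubgroup
    infer_instance
  exact ⟨(⟨σ, hσ⟩ : A.decompositionSubgroup K) * i' * (⟨σ, hσ⟩ : A.decompositionSubgroup K)⁻¹,
    Subgroup.Normal.conj_mem inferInstance i' hi' _, rfl⟩

/-- `specSubmodule` is stable under `s0` (`s0` in the decomposition group). -/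
theorem smul_mem_specSubmodule (hs0 : s0 ∈ A.decompositionSubgroup K) {m : J}
    (hm : m ∈ specSubmodule J A hℓ s0) : s0 • m ∈ specSubmodule J A hℓ s0 := by
  induction hm using Submodule.span_induction with
  | mem y hy =>
    rcases hy with ⟨i, hi, x, rfl⟩ | ⟨x, rfl⟩
    · have e : s0 • (i • x - x) = (s0 * i * s0⁻¹) • (s0 • x) - s0 • x := by
        rw [smul_sub, smul_smul, smul_smul, inv_mul_cancel_right]
      rw [e]
      exact inertia_sub_mem_specSubmodule (conj_mem_inertiaSubgroupIn hs0 hi) _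
    · rw [smul_frobQuad s0 s0 rfl]
      exact frobQuad_mem_specSubmodule _
  | zero => rw [smul_zero]; exact Submodule.zero_mem _
  | add y z _ _ hy hz => rw [smul_add]; exact Submodule.add_mem _ hy hz
  | smul T y _ hy => rw [smul_comm]; exact Submodule.smul_mem _ _ hy

variable (J A hℓ s0)

/-- The endomorphism of the formal special fibre induced by `s0`. -/
def specFrob (hs0 : s0 ∈ A.decompositionSubgroup K) :
    SpecQuot J A hℓ s0 →+ SpecQuot J A hℓ s0 :=
  ((specSubmodule J A hℓ s0).mapQ (specSubmodule J A hℓ s0)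
    (DistribSMul.toLinearMap HeckeAlg J s0)
    (fun _ hm => smul_mem_specSubmodule hs0 hm)).toAddMonoidHom

variable {J A hℓ s0}

theorem specFrob_specMap (hs0 : s0 ∈ A.decompositionSubgroup K) (x : J) :
    specFrob J A hℓ s0 hs0 (specMap J A hℓ s0 x) = specMap J A hℓ s0 (s0 • x) := rfl

theorem specMap_hecke_smul (T : HeckeAlg) (x : J) :
    specMap J A hℓ s0 (T • x) = T • specMap J A hℓ s0 x := rfl

theorem specMap_inertia_smul {i : L ≃ₐ[K] L} (hi : i ∈ A.inertiaSubgroupIn K) (x : J) :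
    specMap J A hℓ s0 (i • x) = specMap J A hℓ s0 x :=
  specMap_eq_iff.2 (inertia_sub_mem_specSubmodule hi x)

theorem specMap_surjective : Function.Surjective (specMap J A hℓ s0) :=
  Submodule.Quotient.mk_surjective _

/-- Every Frobenius lift at `A` induces `specFrob`. -/
theorem specMap_frobenius_smul (hs0 : A.IsFrobeniusAt s0 ℓ) {σ : L ≃ₐ[K] L}
    (hσ : A.IsFrobeniusAt σ ℓ) (x : J) :
    specMap J A hℓ s0 (σ • x) =
      specFrob J A hℓ s0 hs0.mem_decompositionSubgroup (specMap J A hℓ s0 x) := by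
  have hi : σ * s0⁻¹ ∈ A.inertiaSubgroupIn K := Fermat.Agent.Cheb.mul_inv_mem_inertiaSubgroupIn hσ hs0
  have e : σ • x = (σ * s0⁻¹) • (s0 • x) := by rw [smul_smul, inv_mul_cancel_right]
  rw [specFrob_specMap, e, specMap_inertia_smul hi]

/-- The special fibre relation `F² - T_ℓ F + ℓ = 0` holds on the formal special fibre. -/
theorem specialFibreRelation_specFrob (hs0 : s0 ∈ A.decompositionSubgroup K) :
    SpecialFibreRelation (SpecQuot J A hℓ s0) ℓ hℓ (specFrob J A hℓ s0 hs0) := by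
  intro y
  obtain ⟨x, rfl⟩ := specMap_surjective (J := J) (A := A) (hℓ := hℓ) (s0 := s0) y
  rw [specFrob_specMap, specFrob_specMap, ← specMap_hecke_smul, ← map_nsmul, ← map_sub, ← map_add,
    specMap_eq_zero_iff]
  exact frobQuad_mem_specSubmodule x

/-- An additive map which is inertia-invariant and kills `P(s0) J` kills `specSubmodule`. -/
theorem red_eq_zero_of_mem_specSubmodule {Jt : Type*} [AddCommGroup Jt] (red : J →+ Jt)
    (hI : ∀ i ∈ A.inertiaSubgroupIn K, ∀ x : J, red (i • x) = red x)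
    (hP : ∀ x : J, red (frobQuad J hℓ s0 x) = 0) {m : J} (hm : m ∈ specSubmodule J A hℓ s0) :
    red m = 0 := by
  have key : ∀ T : HeckeAlg, red (T • m) = 0 := by
    induction hm using Submodule.span_induction with
    | mem y hy =>
      intro T
      rcases hy with ⟨i, hi, x, rfl⟩ | ⟨x, rfl⟩
      · rw [smul_sub, ← smul_comm i T x, map_sub, hI i hi, sub_self]
      · rw [hecke_smul_frobQuad, hP]
    | zero => intro T; rw [smul_zero, map_zero]
    | add y z _ _ hy hz => intro T; rw [smul_add, map_add, hy, hz, add_zero]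
    | smul T' y _ hy => intro T; rw [smul_smul]; exact hy _
  simpa using key 1

/-- **Formal part of S37, criterion form.**  If some additive map `red` out of `J` is
inertia-invariant, kills `P(s0) J` and is injective on `p`-power torsion, then the formal datum
`(J / M, mk, s0)` is a specialization. -/
theorem isSpecialization_specMap_of_red (p : ℕ) (hs0 : A.IsFrobeniusAt s0 ℓ)
    {Jt : Type*} [AddCommGroup Jt] (red : J →+ Jt)
    (hI : ∀ i ∈ A.inertiaSubgroupIn K, ∀ x : J, red (i • x) = red x)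
    (hP : ∀ x : J, red (frobQuad J hℓ s0 x) = 0)
    (hinj : ∀ x : J, (∃ n : ℕ, p ^ n • x = 0) → red x = 0 → x = 0) :
    IsSpecialization (K := K) p J (SpecQuot J A hℓ s0) A ℓ (specMap J A hℓ s0)
      (specFrob J A hℓ s0 hs0.mem_decompositionSubgroup) where
  hecke_comm := specMap_hecke_smul
  inertia_comm _ hi x := specMap_inertia_smul hi x
  frobenius_comm _ hσ x := specMap_frobenius_smul hs0 hσ x
  injective_torsion x hx h :=
    hinj x hx (red_eq_zero_of_mem_specSubmodule red hI hP (specMap_eq_zero_iff.1 h))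

/-- The quadratic relation from a reduction datum: `red ∘ s0 = Φ ∘ red`,
`red ∘ T_ℓ = (Φ + Ψ) ∘ red`, `Ψ ∘ Φ = ℓ`. -/
theorem red_frobQuad_eq_zero {Jt : Type*} [AddCommGroup Jt] (red : J →+ Jt) (Φ Ψ : Jt →+ Jt)
    (hΦ : ∀ x : J, red (s0 • x) = Φ (red x))
    (hT : ∀ x : J, red (heckeGen ⟨ℓ, hℓ⟩ • x) = Φ (red x) + Ψ (red x))
    (hΨΦ : ∀ y : Jt, Ψ (Φ y) = ℓ • y) (x : J) : red (frobQuad J hℓ s0 x) = 0 := by
  unfold frobQuad
  rw [map_add, map_sub, map_nsmul, hT, hΦ, hΦ, hΨΦ]
  abel

/-- **Formal part of S37, reduction-datum form.** -/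
theorem isSpecialization_specMap_of_reductionData (p : ℕ) (hs0 : A.IsFrobeniusAt s0 ℓ)
    {Jt : Type*} [AddCommGroup Jt] (red : J →+ Jt) (Φ Ψ : Jt →+ Jt)
    (hI : ∀ i ∈ A.inertiaSubgroupIn K, ∀ x : J, red (i • x) = red x)
    (hΦ : ∀ x : J, red (s0 • x) = Φ (red x))
    (hT : ∀ x : J, red (heckeGen ⟨ℓ, hℓ⟩ • x) = Φ (red x) + Ψ (red x))
    (hΨΦ : ∀ y : Jt, Ψ (Φ y) = ℓ • y)
    (hinj : ∀ x : J, (∃ n : ℕ, p ^ n • x = 0) → red x = 0 → x = 0) :
    IsSpecialization (K := K) p J (SpecQuot J A hℓ s0) A ℓ (specMap J A hℓ s0)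
      (specFrob J A hℓ s0 hs0.mem_decompositionSubgroup) :=
  isSpecialization_specMap_of_red p hs0 red hI (red_frobQuad_eq_zero red Φ Ψ hΦ hT hΨΦ) hinj

end Formal

section Packaging

universe v

variable {K L : Type*} [Field K] [Field L] [Algebra K L]
variable (p : ℕ) (J : Type) [AddCommGroup J] [Module HeckeAlg J]
  [DistribMulAction (L ≃ₐ[K] L) J] [SMulCommClass (L ≃ₐ[K] L) HeckeAlg J]
variable (A : ValuationSubring L) {ℓ : ℕ} (hℓ : ℓ.Prime) (s0 : L ≃ₐ[K] L)

/-- A reduction datum at `(A, ℓ)` for the Frobenius lift `s0`: an additive map `red : J →+ Jt`,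
invariant under the inertia group of `A`, injective on `p`-power torsion, together with
endomorphisms `Φ` ("`Frob_*`") and `Ψ` ("`Frob^*`") of `Jt` with `red ∘ s0 = Φ ∘ red`,
`red ∘ T_ℓ = (Φ + Ψ) ∘ red` (Eichler–Shimura congruence) and `Ψ ∘ Φ = ℓ`. -/
def HasReductionData : Prop :=
  ∃ (Jt : Type v) (_ : AddCommGroup Jt) (red : J →+ Jt) (Φ Ψ : Jt →+ Jt),
    (∀ i ∈ A.inertiaSubgroupIn K, ∀ x : J, red (i • x) = red x) ∧
    (∀ x : J, red (s0 • x) = Φ (red x)) ∧
    (∀ x : J, red (heckeGen ⟨ℓ, hℓ⟩ • x) = Φ (red x) + Ψ (red x)) ∧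
    (∀ y : Jt, Ψ (Φ y) = ℓ • y) ∧
    (∀ x : J, (∃ n : ℕ, p ^ n • x = 0) → red x = 0 → x = 0)

variable {p J A hℓ s0}

/-- One prime: a Frobenius lift with a reduction datum gives the existential clause of
`SpecializationExists`. -/
theorem exists_isSpecialization_of_hasReductionData (hs0 : A.IsFrobeniusAt s0 ℓ)
    (h : HasReductionData.{v} p J A hℓ s0) :
    ∃ (J' : Type) (_ : AddCommGroup J') (_ : Module HeckeAlg J') (sp : J →+ J') (F : J' →+ J'),
      IsSpecialization (K := K) p J J' A ℓ sp F ∧ SpecialFibreRelation J' ℓ hℓ F := by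
  obtain ⟨Jt, _, red, Φ, Ψ, hI, hΦ, hT, hΨΦ, hinj⟩ := h
  exact ⟨SpecQuot J A hℓ s0, inferInstance, inferInstance, specMap J A hℓ s0,
    specFrob J A hℓ s0 hs0.mem_decompositionSubgroup,
    isSpecialization_specMap_of_reductionData p hs0 red Φ Ψ hI hΦ hT hΨΦ hinj,
    specialFibreRelation_specFrob hs0.mem_decompositionSubgroup⟩

variable (p J)

/-- **Formal part of S37, general form**: reduction data (for one Frobenius lift) at every
`A` over every prime `ℓ ∤ N p` give `SpecializationExists`. -/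
theorem specializationExists_of_reductionData (N : ℕ)
    (h : ∀ ℓ : ℕ, (hℓ : ℓ.Prime) → ¬ ℓ ∣ N * p →
      ∀ A : ValuationSubring L, A.LiesOverPrime ℓ →
        ∃ s0 : L ≃ₐ[K] L, A.IsFrobeniusAt s0 ℓ ∧ HasReductionData.{v} p J A hℓ s0) :
    SpecializationExists (K := K) (L := L) N p J := by
  intro ℓ hℓ hNp A hA
  obtain ⟨s0, hs0, hd⟩ := h ℓ hℓ hNp A hA
  exact exists_isSpecialization_of_hasReductionData hs0 hd

end Packaging

section Rat

universe v

open Fermat.Agent.CFT

/-- **Formal part of S37 over `ℚ`**: here Frobenius lifts exist at every `A` over `ℓ`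
(`Cheb.exists_isFrobeniusAt_of_liesOverPrime`), so it suffices to produce reduction data for
every Frobenius lift. -/
theorem specializationExists_rat_of_reductionData (N p : ℕ) (J : Type) [AddCommGroup J]
    [Module HeckeAlg J]
    [DistribMulAction (AlgebraicClosure ℚ ≃ₐ[ℚ] AlgebraicClosure ℚ) J]
    [SMulCommClass (AlgebraicClosure ℚ ≃ₐ[ℚ] AlgebraicClosure ℚ) HeckeAlg J]
    (h : ∀ ℓ : ℕ, (hℓ : ℓ.Prime) → ¬ ℓ ∣ N * p →
      ∀ A : ValuationSubring (AlgebraicClosure ℚ), A.LiesOverPrime ℓ →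
        ∀ s0 : AlgebraicClosure ℚ ≃ₐ[ℚ] AlgebraicClosure ℚ, A.IsFrobeniusAt s0 ℓ →
          HasReductionData.{v} p J A hℓ s0) :
    SpecializationExists (K := ℚ) (L := AlgebraicClosure ℚ) N p J := by
  refine specializationExists_of_reductionData.{v} p J N fun ℓ hℓ hNp A hA => ?_
  obtain ⟨s0, hs0⟩ := Fermat.Agent.Cheb.exists_isFrobeniusAt_of_liesOverPrime hℓ hA
  exact ⟨s0, hs0, h ℓ hℓ hNp A hA s0 hs0⟩

/-- **S37 reduced to reduction data**, in the exact shape of the frozen statement: it remains to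
produce, for every prime `ℓ ∤ N p`, every `A` over `ℓ` and every Frobenius lift `s0` at `A`, an
additive map `red` out of `JZero N` which is inertia-invariant, injective on `p`-power torsion,
intertwines `s0` with some `Φ` and the Hecke correspondence `heckeOperatorBar N ℓ` with `Φ + Ψ`,
where `Ψ ∘ Φ = ℓ`. -/
theorem specializationExists_JZero_of_reductionData (N p : ℕ) [NeZero N]
    (hcomm : HeckeOperatorsCommuteBar N)
    (h : ∀ ℓ : ℕ, (hℓ : ℓ.Prime) → ¬ ℓ ∣ N * p →
      ∀ A : ValuationSubring (AlgebraicClosure ℚ), A.LiesOverPrime ℓ →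
        ∀ s0 : AlgebraicClosure ℚ ≃ₐ[ℚ] AlgebraicClosure ℚ, A.IsFrobeniusAt s0 ℓ →
          ∃ (Jt : Type v) (_ : AddCommGroup Jt) (red : JZero N →+ Jt) (Φ Ψ : Jt →+ Jt),
            (∀ i ∈ A.inertiaSubgroupIn ℚ, ∀ x : JZero N, red (i • x) = red x) ∧
            (∀ x : JZero N, red (s0 • x) = Φ (red x)) ∧
            (∀ x : JZero N, red (heckeOperatorBar N ⟨ℓ, hℓ⟩ x) = Φ (red x) + Ψ (red x)) ∧
            (∀ y : Jt, Ψ (Φ y) = ℓ • y) ∧
            (∀ x : JZero N, (∃ n : ℕ, p ^ n • x = 0) → red x = 0 → x = 0)) :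
    letI := heckeModuleBar N
    ∀ (_ : SMulCommClass (AlgebraicClosure ℚ ≃ₐ[ℚ] AlgebraicClosure ℚ) HeckeAlg (JZero N)),
      SpecializationExists (K := ℚ) (L := AlgebraicClosure ℚ) N p (JZero N) := by
  letI := heckeModuleBar N
  intro _
  refine specializationExists_rat_of_reductionData.{v} N p (JZero N) fun ℓ hℓ hNp A hA s0 hs0 => ?_
  obtain ⟨Jt, _, red, Φ, Ψ, hI, hΦ, hT, hΨΦ, hinj⟩ := h ℓ hℓ hNp A hA s0 hs0
  refine ⟨Jt, inferInstance, red, Φ, Ψ, hI, hΦ, fun x => ?_, hΨΦ, hinj⟩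
  exact (congrArg red (heckeModuleBar_heckeGen_smul hcomm ⟨ℓ, hℓ⟩ x)).trans (hT x)

end Rat

end Fermat.Agent.Hecke
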