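import Mathlib
import Fermat.Prelude.Def_ModularCurve_X0ModL
import Fermat.Prelude.Def_AlgebraicCurve_BaseChangeGalois

/-!
# S37 node ES-2: coefficientwise automorphisms and Frobenius on `F̃ = k(j(q^d) : d ∣ N)`

`k` a field, `F̃ = modularFunctionFieldFullC k N ⊆ k((q))`.

* `coeffMap_mem_fullC` : a ring endomorphism `τ` of `k`, applied coefficientwise, preserves `F̃`
  (the generators `j(q^d)` have coefficients in the prime ring);
* `coeffAutFullC τ : SemilinearAut k F̃` for a ring automorphism `τ` of `k` (a group hom);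
  by the Prelude it acts on places, divisors, principal divisors and `Pic0`;
* `pow_char_eq_qExpand_coeffMap` : in characteristic `ℓ`, `y ^ ℓ = (τ_ℓ y)(q^ℓ)` in `k((q))`
  (`τ_ℓ` = coefficientwise Frobenius);
* for `k` perfect of characteristic `ℓ`: `frobAutFullC` (`Φ_c`), `qExpandFullC` (`y ↦ y(q^ℓ)` on
  `F̃`), `qExpandFullC_eq` : `y(q^ℓ) = (Φ_c⁻¹ y) ^ ℓ`;
* on divisors: `ord_frob_smul`, `ord_qExpandFullC` : `ord_v (y(q^ℓ)) = ℓ · ord_{Φ v} y`;
* on `Pic0`: `frobPic0` (`Φ`), `verPic0` (`Ψ = ℓ Φ⁻¹`), `verPic0_frobPic0 : Ψ (Φ x) = ℓ • x`.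
-/

set_option autoImplicit false
set_option linter.unusedSectionVars false

noncomputable section

namespace Fermat.Agent.Hecke

open ModularCurve AlgebraicCurve HahnSeries

section CoeffAut

variable {k : Type*} [Field k] (N : ℕ) [NeZero N]

/-- Coefficientwise application of a ring endomorphism of `k` preserves
`F̃ = modularFunctionFieldFullC k N`. -/
theorem coeffMap_mem_fullC (τ : k →+* k) {x : LaurentSeries k}
    (hx : x ∈ modularFunctionFieldFullC k N) :
    coeffMap τ x ∈ modularFunctionFieldFullC k N := by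
  unfold modularFunctionFieldFullC at hx ⊢
  induction hx using IntermediateField.adjoin_induction with
  | mem x hx =>
    obtain ⟨d, hd, hdN, rfl⟩ := hx
    rw [coeffMap_qExpand, coeffMap_jqModC]
    exact IntermediateField.subset_adjoin k _ ⟨d, hd, hdN, rfl⟩
  | algebraMap c =>
    rw [coeffMap_algebraMap]
    exact IntermediateField.algebraMap_mem _ _
  | add x y _ _ hx hy => rw [map_add]; exact add_mem hx hy
  | inv x _ hx => rw [map_inv₀]; exact inv_mem hx
  | mul x y _ _ hx hy => rw [map_mul]; exact mul_mem hx hy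

/-- The ring automorphism of `F̃` induced by a ring automorphism of the constant field. -/
def coeffRingAutFullC (τ : k ≃+* k) :
    (modularFunctionFieldFullC k N) ≃+* (modularFunctionFieldFullC k N) where
  toFun x := ⟨coeffMap (τ : k →+* k) (x : LaurentSeries k), coeffMap_mem_fullC N _ x.2⟩
  invFun x := ⟨coeffMap (τ.symm : k →+* k) (x : LaurentSeries k), coeffMap_mem_fullC N _ x.2⟩
  left_inv x := Subtype.ext <| by
    show coeffMap (τ.symm : k →+* k) (coeffMap (τ : k →+* k) (x : LaurentSeries k))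
      = (x : LaurentSeries k)
    rw [coeffMap_coeffMap,
      coeffMap_congr (g := RingHom.id k) (RingHom.ext fun a => τ.symm_apply_apply a)
        (x : LaurentSeries k),
      coeffMap_id]
  right_inv x := Subtype.ext <| by
    show coeffMap (τ : k →+* k) (coeffMap (τ.symm : k →+* k) (x : LaurentSeries k))
      = (x : LaurentSeries k)
    rw [coeffMap_coeffMap,
      coeffMap_congr (g := RingHom.id k) (RingHom.ext fun a => τ.apply_symm_apply a)
        (x : LaurentSeries k),
      coeffMap_id]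
  map_mul' x y :=
    Subtype.ext (map_mul (coeffMap (τ : k →+* k)) (x : LaurentSeries k) (y : LaurentSeries k))
  map_add' x y :=
    Subtype.ext (map_add (coeffMap (τ : k →+* k)) (x : LaurentSeries k) (y : LaurentSeries k))

@[simp]
theorem coe_coeffRingAutFullC_apply (τ : k ≃+* k) (x : modularFunctionFieldFullC k N) :
    (coeffRingAutFullC N τ x : LaurentSeries k) = coeffMap (τ : k →+* k) (x : LaurentSeries k) :=
  rfl

theorem coeffRingAutFullC_algebraMap (τ : k ≃+* k) (a : k) :
    coeffRingAutFullC N τ (algebraMap k (modularFunctionFieldFullC k N) a)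
      = algebraMap k (modularFunctionFieldFullC k N) (τ a) :=
  Subtype.ext (coeffMap_algebraMap (τ : k →+* k) a)

/-- The semilinear automorphism of `F̃ / k` induced by a ring automorphism of `k`. -/
def coeffAutFullC : (k ≃+* k) →* SemilinearAut k (modularFunctionFieldFullC k N) where
  toFun τ := ⟨(coeffRingAutFullC N τ, τ), fun a => coeffRingAutFullC_algebraMap N τ a⟩
  map_one' := by
    refine Subtype.ext (Prod.ext (RingEquiv.ext fun x => Subtype.ext ?_) rfl)
    show coeffMap ((1 : k ≃+* k) : k →+* k) (x : LaurentSeries k) = (x : LaurentSeries k)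
    rw [show ((1 : k ≃+* k) : k →+* k) = RingHom.id k from RingHom.ext fun _ => rfl,
      coeffMap_id]
  map_mul' σ τ := by
    refine Subtype.ext (Prod.ext (RingEquiv.ext fun x => Subtype.ext ?_) rfl)
    show coeffMap ((σ * τ : k ≃+* k) : k →+* k) (x : LaurentSeries k)
      = coeffMap (σ : k →+* k) (coeffMap (τ : k →+* k) (x : LaurentSeries k))
    rw [coeffMap_coeffMap]
    exact coeffMap_congr (RingHom.ext fun _ => rfl) _

@[simp]
theorem toRingAut_coeffAutFullC (τ : k ≃+* k) :
    SemilinearAut.toRingAut (coeffAutFullC N τ) = coeffRingAutFullC N τ := rfl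

@[simp]
theorem baseAut_coeffAutFullC (τ : k ≃+* k) :
    SemilinearAut.baseAut (coeffAutFullC N τ) = τ := rfl

theorem coe_coeffAutFullC_smul (τ : k ≃+* k) (x : modularFunctionFieldFullC k N) :
    ((coeffAutFullC N τ • x : modularFunctionFieldFullC k N) : LaurentSeries k)
      = coeffMap (τ : k →+* k) (x : LaurentSeries k) :=
  rfl

end CoeffAut

section FrobeniusIdentity

variable {R : Type*} [CommRing R]

/-- `f(q^n)` for a power series `f`, inside Laurent series. -/
theorem qExpand_ofPowerSeries (n : ℕ) [NeZero n] (f : PowerSeries R) :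
    qExpand R n (HahnSeries.ofPowerSeries ℤ R f) =
      HahnSeries.ofPowerSeries ℤ R (PowerSeries.expand n (NeZero.ne n) f) := by
  ext m
  by_cases hm : (n : ℤ) ∣ m
  · obtain ⟨m', rfl⟩ := hm
    rw [qExpand_coeff_mul]
    rcases lt_or_ge m' 0 with hneg | hpos
    · have hn : (0 : ℤ) < n := by exact_mod_cast Nat.pos_of_ne_zero (NeZero.ne n)
      rw [ofPowerSeries_coeff_of_neg _ hneg,
        ofPowerSeries_coeff_of_neg _ (mul_neg_of_pos_of_neg hn hneg)]
    · lift m' to ℕ using hpos
      rw [HahnSeries.ofPowerSeries_apply_coeff, ← Nat.cast_mul,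
        HahnSeries.ofPowerSeries_apply_coeff, PowerSeries.coeff_expand_mul]
  · rw [qExpand_coeff_of_not_dvd _ _ hm]
    rcases lt_or_ge m 0 with hneg | hpos
    · rw [ofPowerSeries_coeff_of_neg _ hneg]
    · lift m to ℕ using hpos
      rw [HahnSeries.ofPowerSeries_apply_coeff, PowerSeries.coeff_expand_of_not_dvd]
      intro h
      exact hm (by exact_mod_cast h)

variable {k : Type*} [Field k] (ℓ : ℕ) [hℓ : Fact ℓ.Prime] [CharP k ℓ]

/-- **Frobenius on Laurent series**: in characteristic `ℓ`, `y ^ ℓ = (τ y)(q^ℓ)` where `τ` is the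
coefficientwise Frobenius. -/
theorem pow_char_eq_qExpand_coeffMap (y : LaurentSeries k) :
    y ^ ℓ = qExpand k ℓ (coeffMap (frobenius k ℓ) y) := by
  have hps : (HahnSeries.ofPowerSeries ℤ k y.powerSeriesPart) ^ ℓ =
      HahnSeries.ofPowerSeries ℤ k
        (PowerSeries.map (frobenius k ℓ)
          (PowerSeries.expand ℓ (NeZero.ne ℓ) y.powerSeriesPart)) := by
    rw [← map_pow]
    congr 1
    exact (MvPowerSeries.map_frobenius_expand ℓ (NeZero.ne ℓ)).symm
  conv_lhs => rw [← LaurentSeries.single_order_mul_powerSeriesPart y]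
  conv_rhs => rw [← LaurentSeries.single_order_mul_powerSeriesPart y]
  rw [mul_pow, map_mul, map_mul, HahnSeries.single_pow, coeffMap_single, qExpand_single,
    coeffMap_ofPowerSeries, qExpand_ofPowerSeries, hps, PowerSeries.map_expand, one_pow,
    RingHom.map_one (frobenius k ℓ), nsmul_eq_mul]

end FrobeniusIdentity

section SemilinearDivisor

variable {K F : Type*} [Field K] [Field F] [Algebra K F]

/-- The divisor of `g • y` is `g • div y`, for a semilinear automorphism `g`. -/
theorem smul_divisor_apply_eq_ord (g : SemilinearAut K F) {D : Divisor K F} {y : F}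
    (hD : ∀ v : Place K F, D v = v.ord y) (v : Place K F) : (g • D) v = v.ord (g • y) := by
  rw [SemilinearAut.divisor_smul_apply, hD]
  have h := SemilinearAut.ord_smul g (g⁻¹ • v) y
  rw [smul_inv_smul] at h
  exact h.symm

/-- A semilinear automorphism maps effective divisors to effective divisors. -/
theorem smul_divisor_nonneg (g : SemilinearAut K F) {D : Divisor K F} (hD : 0 ≤ D) :
    0 ≤ g • D := by
  intro v
  rw [SemilinearAut.divisor_smul_apply]
  exact hD _

end SemilinearDivisor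

section Frobenius

variable (k : Type*) [Field k] (N : ℕ) [NeZero N] (ℓ : ℕ) [hℓ : Fact ℓ.Prime] [CharP k ℓ]
  [PerfectField k]

/-- `Φ_c`: the coefficientwise `ℓ`-power Frobenius, as a semilinear automorphism of `F̃ / k`. -/
def frobAutFullC : SemilinearAut k (modularFunctionFieldFullC k N) :=
  coeffAutFullC N (frobeniusEquiv k ℓ)

theorem frobAutFullC_def :
    frobAutFullC k N ℓ = coeffAutFullC N (frobeniusEquiv k ℓ) := rfl

theorem frobAutFullC_inv :
    (frobAutFullC k N ℓ)⁻¹ = coeffAutFullC N (frobeniusEquiv k ℓ).symm := by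
  rw [frobAutFullC_def, ← map_inv]
  rfl

theorem coe_frobAutFullC_smul (x : modularFunctionFieldFullC k N) :
    ((frobAutFullC k N ℓ • x : modularFunctionFieldFullC k N) : LaurentSeries k)
      = coeffMap (frobenius k ℓ) (x : LaurentSeries k) := by
  rw [frobAutFullC_def, coe_coeffAutFullC_smul]
  exact coeffMap_congr (RingHom.ext fun a => frobeniusEquiv_apply k ℓ a) _

theorem coe_frobAutFullC_inv_smul (x : modularFunctionFieldFullC k N) :
    (((frobAutFullC k N ℓ)⁻¹ • x : modularFunctionFieldFullC k N) : LaurentSeries k)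
      = coeffMap ((frobeniusEquiv k ℓ).symm : k →+* k) (x : LaurentSeries k) := by
  rw [frobAutFullC_inv, coe_coeffAutFullC_smul]

theorem baseAut_frobAutFullC :
    SemilinearAut.baseAut (frobAutFullC k N ℓ) = frobeniusEquiv k ℓ := rfl

/-- `y(q^ℓ) = (Φ_c⁻¹ y) ^ ℓ` in `k((q))`. -/
theorem qExpand_eq_coeffMap_symm_pow (y : LaurentSeries k) :
    qExpand k ℓ y = (coeffMap ((frobeniusEquiv k ℓ).symm : k →+* k) y) ^ ℓ := by
  rw [pow_char_eq_qExpand_coeffMap ℓ, coeffMap_coeffMap]
  congr 1
  have h : (frobenius k ℓ).comp ((frobeniusEquiv k ℓ).symm : k →+* k) = RingHom.id k := by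
    ext a
    exact frobenius_apply_frobeniusEquiv_symm k ℓ a
  rw [coeffMap_congr h, coeffMap_id]

/-- `y ↦ y(q^ℓ)` preserves `F̃`. -/
theorem qExpand_mem_fullC {y : LaurentSeries k} (hy : y ∈ modularFunctionFieldFullC k N) :
    qExpand k ℓ y ∈ modularFunctionFieldFullC k N := by
  rw [qExpand_eq_coeffMap_symm_pow k ℓ]
  exact pow_mem (coeffMap_mem_fullC N _ hy) ℓ

/-- `Fr : F̃ → F̃`, `y ↦ y(q^ℓ)`. -/
def qExpandFullC : modularFunctionFieldFullC k N →+* modularFunctionFieldFullC k N where
  toFun y := ⟨qExpand k ℓ (y : LaurentSeries k), qExpand_mem_fullC k N ℓ y.2⟩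
  map_one' := Subtype.ext (map_one (qExpand k ℓ))
  map_mul' _ _ := Subtype.ext (map_mul (qExpand k ℓ) _ _)
  map_zero' := Subtype.ext (map_zero (qExpand k ℓ))
  map_add' _ _ := Subtype.ext (map_add (qExpand k ℓ) _ _)

theorem coe_qExpandFullC (y : modularFunctionFieldFullC k N) :
    (qExpandFullC k N ℓ y : LaurentSeries k) = qExpand k ℓ (y : LaurentSeries k) := rfl

/-- `y(q^ℓ) = (Φ_c⁻¹ y) ^ ℓ` in `F̃`. -/
theorem qExpandFullC_eq (y : modularFunctionFieldFullC k N) :
    qExpandFullC k N ℓ y = ((frobAutFullC k N ℓ)⁻¹ • y) ^ ℓ := by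
  apply Subtype.ext
  rw [coe_qExpandFullC, SubmonoidClass.coe_pow, coe_frobAutFullC_inv_smul]
  exact qExpand_eq_coeffMap_symm_pow k ℓ _

/-- `ord_v (y(q^ℓ)) = ℓ · ord_{Φ v} (y)`. -/
theorem ord_qExpandFullC (v : Place k (modularFunctionFieldFullC k N))
    (y : modularFunctionFieldFullC k N) :
    v.ord (qExpandFullC k N ℓ y) = ℓ * (frobAutFullC k N ℓ • v).ord y := by
  rw [qExpandFullC_eq, ← zpow_natCast, Place.ord_zpow]
  congr 1
  have h := SemilinearAut.ord_smul (frobAutFullC k N ℓ) v ((frobAutFullC k N ℓ)⁻¹ • y)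
  rw [smul_inv_smul] at h
  exact h.symm

/-- The divisor of `y(q^ℓ)` is `ℓ · Φ⁻¹ (div y)`. -/
theorem ver_divisor_apply_eq_ord {D : Divisor k (modularFunctionFieldFullC k N)}
    {y : modularFunctionFieldFullC k N} (hD : ∀ v, D v = v.ord y)
    (v : Place k (modularFunctionFieldFullC k N)) :
    ((ℓ : ℤ) • ((frobAutFullC k N ℓ)⁻¹ • D)) v = v.ord (qExpandFullC k N ℓ y) := by
  rw [Finsupp.smul_apply, SemilinearAut.divisor_smul_apply, inv_inv, hD, ord_qExpandFullC,
    smul_eq_mul]

/-- `Φ` on `Pic0 k F̃`. -/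
def frobPic0 : Pic0 k (modularFunctionFieldFullC k N) →+ Pic0 k (modularFunctionFieldFullC k N) :=
  DistribSMul.toAddMonoidHom _ (frobAutFullC k N ℓ)

/-- `Ψ = ℓ Φ⁻¹` on `Pic0 k F̃`. -/
def verPic0 : Pic0 k (modularFunctionFieldFullC k N) →+ Pic0 k (modularFunctionFieldFullC k N) :=
  ℓ • DistribSMul.toAddMonoidHom _ (frobAutFullC k N ℓ)⁻¹

theorem frobPic0_apply (x : Pic0 k (modularFunctionFieldFullC k N)) :
    frobPic0 k N ℓ x = frobAutFullC k N ℓ • x := rfl

theorem verPic0_apply (x : Pic0 k (modularFunctionFieldFullC k N)) :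
    verPic0 k N ℓ x = ℓ • ((frobAutFullC k N ℓ)⁻¹ • x) := rfl

/-- `Ψ ∘ Φ = ℓ`. -/
theorem verPic0_frobPic0 (x : Pic0 k (modularFunctionFieldFullC k N)) :
    verPic0 k N ℓ (frobPic0 k N ℓ x) = ℓ • x := by
  rw [verPic0_apply, frobPic0_apply, inv_smul_smul]

/-- `Φ ∘ Ψ = ℓ`. -/
theorem frobPic0_verPic0 (x : Pic0 k (modularFunctionFieldFullC k N)) :
    frobPic0 k N ℓ (verPic0 k N ℓ x) = ℓ • x := by
  rw [verPic0_apply, frobPic0_apply]
  have h := map_nsmul (DistribSMul.toAddMonoidHom (Pic0 k (modularFunctionFieldFullC k N))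
    (frobAutFullC k N ℓ)) ℓ ((frobAutFullC k N ℓ)⁻¹ • x)
  refine h.trans ?_
  rw [DistribSMul.toAddMonoidHom_apply, smul_inv_smul]

/-! ### Divisor level -/

/-- `Φ` on divisors of `F̃`. -/
def frobDiv : Divisor k (modularFunctionFieldFullC k N) →+
    Divisor k (modularFunctionFieldFullC k N) :=
  DistribSMul.toAddMonoidHom _ (frobAutFullC k N ℓ)

/-- `Ψ = ℓ Φ⁻¹` on divisors of `F̃`. -/
def verDiv : Divisor k (modularFunctionFieldFullC k N) →+
    Divisor k (modularFunctionFieldFullC k N) :=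
  ℓ • DistribSMul.toAddMonoidHom _ (frobAutFullC k N ℓ)⁻¹

theorem frobDiv_apply (D : Divisor k (modularFunctionFieldFullC k N)) :
    frobDiv k N ℓ D = frobAutFullC k N ℓ • D := rfl

theorem verDiv_apply (D : Divisor k (modularFunctionFieldFullC k N)) :
    verDiv k N ℓ D = ℓ • ((frobAutFullC k N ℓ)⁻¹ • D) := rfl

theorem verDiv_frobDiv (D : Divisor k (modularFunctionFieldFullC k N)) :
    verDiv k N ℓ (frobDiv k N ℓ D) = ℓ • D := by
  rw [verDiv_apply, frobDiv_apply, inv_smul_smul]

theorem frobDiv_nonneg {D : Divisor k (modularFunctionFieldFullC k N)} (hD : 0 ≤ D) :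
    0 ≤ frobDiv k N ℓ D :=
  smul_divisor_nonneg _ hD

theorem verDiv_nonneg {D : Divisor k (modularFunctionFieldFullC k N)} (hD : 0 ≤ D) :
    0 ≤ verDiv k N ℓ D := by
  rw [verDiv_apply]
  exact nsmul_nonneg (smul_divisor_nonneg _ hD) ℓ

theorem degree_frobDiv (D : Divisor k (modularFunctionFieldFullC k N)) :
    Divisor.degree (frobDiv k N ℓ D) = Divisor.degree D := by
  rw [frobDiv_apply, SemilinearAut.degree_smul]

theorem degree_verDiv (D : Divisor k (modularFunctionFieldFullC k N)) :
    Divisor.degree (verDiv k N ℓ D) = ℓ * Divisor.degree D := by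
  rw [verDiv_apply, map_nsmul, SemilinearAut.degree_smul, nsmul_eq_mul]

/-- `Φ (div y) = div (Φ_c y)`. -/
theorem frobDiv_apply_eq_ord {D : Divisor k (modularFunctionFieldFullC k N)}
    {y : modularFunctionFieldFullC k N} (hD : ∀ v, D v = v.ord y)
    (v : Place k (modularFunctionFieldFullC k N)) :
    frobDiv k N ℓ D v = v.ord (frobAutFullC k N ℓ • y) :=
  smul_divisor_apply_eq_ord _ hD v

/-- `Ψ (div y) = div (y(q^ℓ))`. -/
theorem verDiv_apply_eq_ord {D : Divisor k (modularFunctionFieldFullC k N)}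
    {y : modularFunctionFieldFullC k N} (hD : ∀ v, D v = v.ord y)
    (v : Place k (modularFunctionFieldFullC k N)) :
    verDiv k N ℓ D v = v.ord (qExpandFullC k N ℓ y) := by
  rw [verDiv_apply, ← Nat.cast_smul_eq_nsmul ℤ]
  exact ver_divisor_apply_eq_ord k N ℓ hD v

/-- Compatibility of `Φ` on divisors and on `Pic0`. -/
theorem mk_frobDiv (D : Divisor.degZero (K := k) (F := modularFunctionFieldFullC k N))
    (h : frobDiv k N ℓ (D : Divisor k (modularFunctionFieldFullC k N)) ∈
      Divisor.degZero (K := k) (F := modularFunctionFieldFullC k N)) :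
    Pic0.mk ⟨frobDiv k N ℓ D, h⟩ = frobPic0 k N ℓ (Pic0.mk D) := by
  rw [frobPic0_apply, SemilinearAut.pic0_smul_mk]
  rfl

/-- Compatibility of `Ψ` on divisors and on `Pic0`. -/
theorem mk_verDiv (D : Divisor.degZero (K := k) (F := modularFunctionFieldFullC k N))
    (h : verDiv k N ℓ (D : Divisor k (modularFunctionFieldFullC k N)) ∈
      Divisor.degZero (K := k) (F := modularFunctionFieldFullC k N)) :
    Pic0.mk ⟨verDiv k N ℓ D, h⟩ = verPic0 k N ℓ (Pic0.mk D) := by
  rw [verPic0_apply, SemilinearAut.pic0_smul_mk]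
  have h1 : (⟨verDiv k N ℓ D, h⟩ : Divisor.degZero (K := k) (F := modularFunctionFieldFullC k N))
      = ℓ • (SemilinearAut.degZeroSMulHom (frobAutFullC k N ℓ)⁻¹ D) := by
    apply Subtype.ext
    rw [AddSubgroupClass.coe_nsmul, SemilinearAut.coe_degZeroSMulHom]
    rfl
  rw [h1]
  exact (QuotientAddGroup.mk_nsmul _ _ _)

end Frobenius

end Fermat.Agent.Hecke
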